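import Fermat.Agent.LT.H670.QOut.SpecA
import Fermat.Agent.LT.T8.H864.Local
import Fermat.Agent.LT.H556.T0.Closure

/-!
# Row LT, tower T7, sub-tower QOUT, leaf `QA1` (helper698): the base point

OFF-MAIN.  Proves `QOut.QA1` of `H670/QOut/SpecA.lean` (helper670) VERBATIM, unconditionally:
`qa1_698 : QOut.QA1`.

Route (no strong approximation):
* `φ g ≠ 0`; after left translation by `diag(-1,1) ∈ GL₂(ℚ)` the real component `g_∞` of `g` has
  positive determinant, so `g_∞ = g_z · r · k_θ` (Iwasawa, `iwasawa698`), and with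
  `g₀ = g_∞⁻¹ g` (trivial at the real place) `φ(g_z g₀) ≠ 0` (`exists_base698`);
* `φ₁(g) = φ(g g₀)`; `g₀` and `g₀⁻¹` have a common denominator `D` (`exists_den_both698`), and
  `g₀⁻¹ U(N₀ D²) g₀ ⊆ U(π.level)` for `N₀ = |π.level|` (`level_conj698`);
* at `p ∤ N₀ D²` the element `g₀` is in `GL₂(ℤ_p)`, so conjugation by `g₀` preserves the Hecke coset
  systems and the scalar uniformisers (`hecke_conj698`).
-/

set_option autoImplicit false

open IsDedekindDomain NumberField AutomorphicForm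
open CongruenceSubgroup UpperHalfPlane
open scoped MatrixGroups Manifold

noncomputable section

namespace Fermat.Agent.LT.T7.H698

open Fermat.Agent.LT.H556 Fermat.Agent.LT.H670 Fermat.Agent.LT.T8

/-! ## Bounded denominators -/

/-- natural numbers are integral at every finite place -/
theorem natCast_mem_int698 (v : HeightOneSpectrum (𝓞 ℚ)) (n : ℕ) :
    ((n : ℕ) : v.adicCompletion ℚ) ∈ v.adicCompletionIntegers ℚ :=
  natCast_mem _ n

theorem dvd_mul_mem_int698 (v : HeightOneSpectrum (𝓞 ℚ)) {n m : ℕ} (h : n ∣ m)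
    {a : v.adicCompletion ℚ} (ha : ((n : ℕ) : v.adicCompletion ℚ) * a ∈ v.adicCompletionIntegers ℚ) :
    ((m : ℕ) : v.adicCompletion ℚ) * a ∈ v.adicCompletionIntegers ℚ := by
  obtain ⟨c, rfl⟩ := h
  have h1 : (((n * c : ℕ)) : v.adicCompletion ℚ) * a
      = ((c : ℕ) : v.adicCompletion ℚ) * (((n : ℕ) : v.adicCompletion ℚ) * a) := by
    push_cast; ring
  rw [h1]
  exact mul_mem (natCast_mem_int698 v c) ha

/-- one place: a nonzero natural number clears the denominator -/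
theorem exists_nat_mul_mem698 (v : HeightOneSpectrum (𝓞 ℚ)) (a : v.adicCompletion ℚ) :
    ∃ n : ℕ, n ≠ 0 ∧ ((n : ℕ) : v.adicCompletion ℚ) * a ∈ v.adicCompletionIntegers ℚ := by
  obtain ⟨b, hb, hab⟩ :=
    HeightOneSpectrum.adicCompletion.mul_nonZeroDivisor_mem_adicCompletionIntegers (K := ℚ) v a
  have hb0 : b ≠ 0 := nonZeroDivisors.ne_zero hb
  have hI : Ideal.span {b} ≠ (⊥ : Ideal (𝓞 ℚ)) := by
    rw [Ne, Ideal.span_singleton_eq_bot]; exact hb0
  refine ⟨Ideal.absNorm (Ideal.span {b}), ?_, ?_⟩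
  · intro h0
    rw [Ideal.absNorm_eq_zero_iff] at h0
    exact hI h0
  · have hmem := Ideal.absNorm_mem (Ideal.span {b})
    rw [Ideal.mem_span_singleton] at hmem
    obtain ⟨c, hc⟩ := hmem
    have h2 : ((Ideal.absNorm (Ideal.span {b}) : ℕ) : v.adicCompletion ℚ)
        = algebraMap (𝓞 ℚ) (v.adicCompletion ℚ) b * algebraMap (𝓞 ℚ) (v.adicCompletion ℚ) c := by
      rw [← map_mul, ← hc, map_natCast]
    rw [h2]
    have h3 : algebraMap (𝓞 ℚ) (v.adicCompletion ℚ) b * algebraMap (𝓞 ℚ) (v.adicCompletion ℚ) c * a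
        = algebraMap (𝓞 ℚ) (v.adicCompletion ℚ) c * (a * algebraMap (𝓞 ℚ) (v.adicCompletion ℚ) b) := by
      ring
    rw [h3]
    refine mul_mem ?_ hab
    exact HeightOneSpectrum.coe_mem_adicCompletionIntegers v c

/-- a finite adele has a bounded denominator -/
theorem exists_nat_mul_mem_adele698 (x : FiniteAdeleRing (𝓞 ℚ) ℚ) :
    ∃ D : ℕ, D ≠ 0 ∧ ∀ v : HeightOneSpectrum (𝓞 ℚ),
      ((D : ℕ) : v.adicCompletion ℚ) * x v ∈ v.adicCompletionIntegers ℚ := by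
  classical
  have hfin : {v : HeightOneSpectrum (𝓞 ℚ) | x v ∉ v.adicCompletionIntegers ℚ}.Finite := by
    have := x.2
    rw [Filter.eventually_cofinite] at this
    exact this
  choose n hn0 hn using fun v : HeightOneSpectrum (𝓞 ℚ) => exists_nat_mul_mem698 v (x v)
  refine ⟨∏ v ∈ hfin.toFinset, n v, ?_, fun v => ?_⟩
  · exact Finset.prod_ne_zero_iff.2 fun v _ => hn0 v
  · by_cases hv : x v ∈ v.adicCompletionIntegers ℚ
    · exact mul_mem (natCast_mem_int698 v _) hv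
    · have hmem : v ∈ hfin.toFinset := by
        rw [Set.Finite.mem_toFinset]; exact hv
      exact dvd_mul_mem_int698 v (Finset.dvd_prod_of_mem n hmem) (hn v)

/-! ## The closure of an ideal -/

theorem natCast_ne_zero698 (v : HeightOneSpectrum (𝓞 ℚ)) {n : ℕ} (hn : n ≠ 0) :
    ((n : ℕ) : v.adicCompletion ℚ) ≠ 0 := by
  have h : ((n : ℕ) : v.adicCompletion ℚ) = algebraMap ℚ (v.adicCompletion ℚ) (n : ℚ) :=
    (map_natCast _ n).symm
  rw [h]
  intro h0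
  have h1 : algebraMap ℚ (v.adicCompletion ℚ) (n : ℚ) = algebraMap ℚ (v.adicCompletion ℚ) 0 := by
    rw [h0, map_zero]
  have h2 := (algebraMap ℚ (v.adicCompletion ℚ)).injective h1
  exact hn (by exact_mod_cast h2)

/-- `x · 𝒪_v ⊆ closure 𝔫` for `x ∈ 𝔫` -/
theorem mul_int_mem_idealClosure698 (𝔫 : Ideal (𝓞 ℚ)) (v : HeightOneSpectrum (𝓞 ℚ)) {x : 𝓞 ℚ}
    (hx : x ∈ 𝔫) {t : v.adicCompletion ℚ} (ht : t ∈ v.adicCompletionIntegers ℚ) :
    algebraMap ℚ (v.adicCompletion ℚ) (algebraMap (𝓞 ℚ) ℚ x) * t ∈ A0.idealClosure 𝔫 v := by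
  have hclosed : IsClosed {s : v.adicCompletion ℚ |
      algebraMap ℚ (v.adicCompletion ℚ) (algebraMap (𝓞 ℚ) ℚ x) * s ∈ A0.idealClosure 𝔫 v} := by
    have hc : Continuous fun s : v.adicCompletion ℚ =>
        algebraMap ℚ (v.adicCompletion ℚ) (algebraMap (𝓞 ℚ) ℚ x) * s :=
      continuous_const.mul continuous_id
    exact (isClosed_closure (s := _)).preimage hc
  have hdense : t ∈ closure ((algebraMap ℚ (v.adicCompletion ℚ)) ''
      {k : ℚ | v.valuation ℚ k ≤ 1}) := by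
    rw [mem_closure_iff_nhds]
    intro W hW
    have hopen : IsOpen ((v.adicCompletionIntegers ℚ : ValuationSubring (v.adicCompletion ℚ)) :
        Set (v.adicCompletion ℚ)) := Valued.isOpen_valuationSubring (v.adicCompletion ℚ)
    have hW' : W ∩ ((v.adicCompletionIntegers ℚ : ValuationSubring (v.adicCompletion ℚ)) :
        Set (v.adicCompletion ℚ)) ∈ nhds t := Filter.inter_mem hW (hopen.mem_nhds ht)
    obtain ⟨k, hk⟩ := (HeightOneSpectrum.denseRange_algebraMap ℚ v).mem_nhds hW'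
    refine ⟨algebraMap ℚ (v.adicCompletion ℚ) k, hk.1, k, ?_, rfl⟩
    have h2 : Valued.v (algebraMap ℚ (v.adicCompletion ℚ) k) ≤ 1 := hk.2
    have h3 : Valued.v (algebraMap ℚ (v.adicCompletion ℚ) k) = v.valuation ℚ k :=
      HeightOneSpectrum.valuedAdicCompletion_eq_valuation' v k
    rw [h3] at h2
    exact h2
  refine closure_minimal ?_ hclosed hdense
  rintro _ ⟨k, hk, rfl⟩
  have := T0.mul_mem_idealClosure 𝔫 v hx hk
  rw [map_mul] at this
  exact this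

/-- elements of `closure (N)` are `N` times an integer -/
theorem inv_mul_mem_int_of_mem_lvl698 (v : HeightOneSpectrum (𝓞 ℚ)) {N : ℕ} (hN : N ≠ 0)
    {y : v.adicCompletion ℚ} (hy : y ∈ A0.idealClosure (QOut.lvl N) v) :
    ((N : ℕ) : v.adicCompletion ℚ)⁻¹ * y ∈ v.adicCompletionIntegers ℚ := by
  have hN' := natCast_ne_zero698 v hN
  have hclosed : IsClosed {s : v.adicCompletion ℚ |
      ((N : ℕ) : v.adicCompletion ℚ)⁻¹ * s ∈ v.adicCompletionIntegers ℚ} := by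
    have hc : Continuous fun s : v.adicCompletion ℚ => ((N : ℕ) : v.adicCompletion ℚ)⁻¹ * s :=
      continuous_const.mul continuous_id
    exact (Valued.isClosed_valuationSubring (v.adicCompletion ℚ)).preimage hc
  refine closure_minimal ?_ hclosed hy
  rintro _ ⟨x, hx, rfl⟩
  have hx' : x ∈ Ideal.span {((N : ℕ) : 𝓞 ℚ)} := hx
  rw [Ideal.mem_span_singleton] at hx'
  obtain ⟨c, rfl⟩ := hx'
  show ((N : ℕ) : v.adicCompletion ℚ)⁻¹ *
    algebraMap ℚ (v.adicCompletion ℚ) (algebraMap (𝓞 ℚ) ℚ (((N : ℕ) : 𝓞 ℚ) * c))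
      ∈ v.adicCompletionIntegers ℚ
  rw [map_mul, map_mul, map_natCast, map_natCast, ← mul_assoc, inv_mul_cancel₀ hN', one_mul]
  exact HeightOneSpectrum.coe_mem_adicCompletionIntegers v c

/-- conjugation of the level group by an element with bounded denominators -/
theorem conj_level698 (𝔫 : Ideal (𝓞 ℚ)) (v : HeightOneSpectrum (𝓞 ℚ)) (N₀ D : ℕ) (hD : D ≠ 0)
    (hN0 : N₀ ≠ 0) (hN₀ : ((N₀ : ℕ) : 𝓞 ℚ) ∈ 𝔫)
    (A B U : Matrix (Fin 2) (Fin 2) (v.adicCompletion ℚ)) (hBA : B * A = 1)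
    (hA : ∀ i j, ((D : ℕ) : v.adicCompletion ℚ) * A i j ∈ v.adicCompletionIntegers ℚ)
    (hB : ∀ i j, ((D : ℕ) : v.adicCompletion ℚ) * B i j ∈ v.adicCompletionIntegers ℚ)
    (hU : ∀ i j, (U - 1) i j ∈ A0.idealClosure (QOut.lvl (N₀ * D * D)) v) (i j : Fin 2) :
    (B * U * A - 1) i j ∈ A0.idealClosure 𝔫 v := by
  have hN : N₀ * D * D ≠ 0 := Nat.mul_ne_zero (Nat.mul_ne_zero hN0 hD) hD
  have hN' := natCast_ne_zero698 v hN
  obtain ⟨y, hy, hUy⟩ : ∃ y : Fin 2 → Fin 2 → v.adicCompletion ℚ,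
      (∀ k l, y k l ∈ v.adicCompletionIntegers ℚ) ∧
      ∀ k l, (U - 1) k l = (((N₀ * D * D : ℕ)) : v.adicCompletion ℚ) * y k l := by
    refine ⟨fun k l => (((N₀ * D * D : ℕ)) : v.adicCompletion ℚ)⁻¹ * (U - 1) k l,
      fun k l => inv_mul_mem_int_of_mem_lvl698 v hN (hU k l), fun k l => ?_⟩
    rw [← mul_assoc, mul_inv_cancel₀ hN', one_mul]
  have h1 : B * U * A - 1 = B * (U - 1) * A := by
    rw [Matrix.mul_sub, Matrix.sub_mul, Matrix.mul_one, hBA]
  have hentry : (B * U * A - 1) i j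
      = algebraMap ℚ (v.adicCompletion ℚ) (algebraMap (𝓞 ℚ) ℚ ((N₀ : ℕ) : 𝓞 ℚ)) *
        (((((D : ℕ) : v.adicCompletion ℚ) * B i 0) * y 0 0
            + (((D : ℕ) : v.adicCompletion ℚ) * B i 1) * y 1 0)
              * (((D : ℕ) : v.adicCompletion ℚ) * A 0 j)
          + ((((D : ℕ) : v.adicCompletion ℚ) * B i 0) * y 0 1
            + (((D : ℕ) : v.adicCompletion ℚ) * B i 1) * y 1 1)
              * (((D : ℕ) : v.adicCompletion ℚ) * A 1 j)) := by
    rw [h1, Matrix.mul_apply, Fin.sum_univ_two, Matrix.mul_apply, Matrix.mul_apply,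
      Fin.sum_univ_two, Fin.sum_univ_two, hUy 0 0, hUy 0 1, hUy 1 0, hUy 1 1, map_natCast,
      map_natCast]
    push_cast
    ring
  rw [hentry]
  refine mul_int_mem_idealClosure698 𝔫 v hN₀ ?_
  exact add_mem (mul_mem (add_mem (mul_mem (hB i 0) (hy 0 0)) (mul_mem (hB i 1) (hy 1 0)))
      (hA 0 j))
    (mul_mem (add_mem (mul_mem (hB i 0) (hy 0 1)) (mul_mem (hB i 1) (hy 1 1))) (hA 1 j))

/-! ## Components at the real place -/

/-- the isomorphism of the completion at the real place with `ℝ` -/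
def toR698 (w : InfinitePlace ℚ) : w.Completion ≃+* ℝ :=
  InfinitePlace.Completion.ringEquivRealOfIsReal (QOut.isReal_place w)

/-- the real component -/
def realOf698 : A0.G ℚ →* GL (Fin 2) ℝ :=
  (Matrix.GeneralLinearGroup.map ((toR698 Rat.infinitePlace : _ ≃+* ℝ) : _ →+* ℝ)).comp
    (H864.infCompHom Rat.infinitePlace)

theorem realOf698_apply (g : A0.G ℚ) (i j : Fin 2) :
    (realOf698 g : Matrix (Fin 2) (Fin 2) ℝ) i j
      = toR698 Rat.infinitePlace (((g : Matrix (Fin 2) (Fin 2) (A0.Adl ℚ)) i j).1 Rat.infinitePlace) :=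
  rfl

theorem infCompHom_locInf698 (w : InfinitePlace ℚ) (m : GL (Fin 2) ℝ) (i j : Fin 2) :
    (H864.infCompHom w (QOut.locInf m) : Matrix (Fin 2) (Fin 2) w.Completion) i j
      = (toR698 w).symm (m i j) := rfl

theorem realOf698_locInf (m : GL (Fin 2) ℝ) : realOf698 (QOut.locInf m) = m := by
  refine Units.ext (Matrix.ext fun i j => ?_)
  rw [realOf698_apply]
  exact (toR698 Rat.infinitePlace).apply_symm_apply (m i j)

theorem infCompHom_locInf_realOf698 (w : InfinitePlace ℚ) (g : A0.G ℚ) :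
    H864.infCompHom w (QOut.locInf (realOf698 g)) = H864.infCompHom w g := by
  obtain rfl : w = Rat.infinitePlace := Subsingleton.elim _ _
  refine Units.ext (Matrix.ext fun i j => ?_)
  rw [infCompHom_locInf698, realOf698_apply]
  exact (toR698 Rat.infinitePlace).symm_apply_apply _

theorem finCompHom_locInf698 (v : HeightOneSpectrum (𝓞 ℚ)) (m : GL (Fin 2) ℝ) :
    H864.finCompHom v (QOut.locInf m) = 1 :=
  (H864.trivAtFin_iff_hom v _).1 (QOut.trivAtFin_locInf v m)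

theorem realOf698_diagQ (γ : GL (Fin 2) ℚ) : realOf698 (QOut.diagQ γ) = QOut.toReal γ := by
  refine Units.ext (Matrix.ext fun i j => ?_)
  rw [realOf698_apply]
  show ((toR698 Rat.infinitePlace : _ ≃+* ℝ) : _ →+* ℝ)
    (algebraMap ℚ (Rat.infinitePlace : InfinitePlace ℚ).Completion (γ i j)) = algebraMap ℚ ℝ (γ i j)
  rw [eq_ratCast, map_ratCast, eq_ratCast]

/-- the part of `g` away from the real place -/
def finOf698 (g : A0.G ℚ) : A0.G ℚ := (QOut.locInf (realOf698 g))⁻¹ * g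

theorem locInf_mul_finOf698 (g : A0.G ℚ) : QOut.locInf (realOf698 g) * finOf698 g = g :=
  mul_inv_cancel_left _ _

theorem trivAtInf_finOf698 (g : A0.G ℚ) (w : InfinitePlace ℚ) : A0.TrivAtInf w (finOf698 g) := by
  rw [H864.trivAtInf_iff_hom, finOf698, map_mul, map_inv, infCompHom_locInf_realOf698,
    inv_mul_cancel]

/-- elements trivial at the real place commute with the elements at the real place -/
theorem comm_locInf698 {g : A0.G ℚ} (hg : ∀ w : InfinitePlace ℚ, A0.TrivAtInf w g)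
    (m : GL (Fin 2) ℝ) : g * QOut.locInf m = QOut.locInf m * g :=
  H864.commute_of_triv (fun w => Or.inl ((H864.trivAtInf_iff_hom w g).1 (hg w)))
    (fun v => Or.inr (finCompHom_locInf698 v m))

theorem trivAtInf_mul698 {g g' : A0.G ℚ} (hg : ∀ w : InfinitePlace ℚ, A0.TrivAtInf w g)
    (hg' : ∀ w : InfinitePlace ℚ, A0.TrivAtInf w g') (w : InfinitePlace ℚ) :
    A0.TrivAtInf w (g * g') := by
  rw [H864.trivAtInf_iff_hom, map_mul, (H864.trivAtInf_iff_hom w g).1 (hg w),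
    (H864.trivAtInf_iff_hom w g').1 (hg' w), one_mul]

theorem trivAtInf_inv698 {g : A0.G ℚ} (hg : ∀ w : InfinitePlace ℚ, A0.TrivAtInf w g)
    (w : InfinitePlace ℚ) : A0.TrivAtInf w g⁻¹ := by
  rw [H864.trivAtInf_iff_hom, map_inv, (H864.trivAtInf_iff_hom w g).1 (hg w), inv_one]

/-! ## The concrete elements at the real place -/

theorem infComp_kTheta698 (w : InfinitePlace ℚ) (θ : ℝ) :
    A0.infComp w (QOut.locInf (QOut.kTheta θ)) = QOut.rotC θ := by
  rw [QOut.infComp_locInf]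
  refine Matrix.ext fun i j => ?_
  fin_cases i <;> fin_cases j <;> simp [QOut.kTheta, QOut.rotC]

theorem infComp_gzMat698 (w : InfinitePlace ℚ) (z : ℍ) :
    A0.infComp w (QOut.locInf (QOut.gzMat z)) = QOut.gzC z := by
  rw [QOut.infComp_locInf]
  refine Matrix.ext fun i j => ?_
  fin_cases i <;> fin_cases j <;> simp [QOut.gzMat, QOut.gzC]

theorem isArchPosScalar698 (w : InfinitePlace ℚ) (r : ℝ) (hr : 0 < r) :
    A0.IsArchPosScalar w (QOut.locInf (QOut.scalR r hr)) := by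
  refine ⟨QOut.isLocalAtInf_locInf w _, r, hr, ?_⟩
  rw [QOut.infComp_locInf]
  refine Matrix.ext fun i j => ?_
  fin_cases i <;> fin_cases j <;> simp [QOut.scalR]

/-! ## Iwasawa decomposition -/

theorem iwasawa698 (m : GL (Fin 2) ℝ) (hdet : 0 < (m : Matrix (Fin 2) (Fin 2) ℝ).det) :
    ∃ (z : ℍ) (r : ℝ) (hr : 0 < r) (θ : ℝ),
      m = QOut.gzMat z * QOut.scalR r hr * QOut.kTheta θ := by
  set a := (m : Matrix (Fin 2) (Fin 2) ℝ) 0 0 with ha
  set b := (m : Matrix (Fin 2) (Fin 2) ℝ) 0 1 with hb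
  set c := (m : Matrix (Fin 2) (Fin 2) ℝ) 1 0 with hc
  set d := (m : Matrix (Fin 2) (Fin 2) ℝ) 1 1 with hd
  have hdet' : 0 < a * d - b * c := by
    rw [Matrix.det_fin_two] at hdet; exact hdet
  have hs : 0 < c ^ 2 + d ^ 2 := by
    by_contra hneg
    have hc0 : c = 0 := by nlinarith [sq_nonneg c, sq_nonneg d]
    have hd0 : d = 0 := by nlinarith [sq_nonneg c, sq_nonneg d]
    rw [hc0, hd0] at hdet'
    simp at hdet'
  have hr : 0 < Real.sqrt (c ^ 2 + d ^ 2) := Real.sqrt_pos.2 hs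
  have hrr : Real.sqrt (c ^ 2 + d ^ 2) * Real.sqrt (c ^ 2 + d ^ 2) = c ^ 2 + d ^ 2 :=
    Real.mul_self_sqrt hs.le
  have hw0 : (⟨d, -c⟩ : ℂ) ≠ 0 := by
    intro h0
    have h1 := congrArg Complex.re h0
    have h2 := congrArg Complex.im h0
    simp only [Complex.zero_re, Complex.zero_im] at h1 h2
    have hc0 : c = 0 := by linarith
    rw [hc0, h1] at hs
    simp at hs
  have hnorm : ‖(⟨d, -c⟩ : ℂ)‖ = Real.sqrt (c ^ 2 + d ^ 2) := by
    rw [Complex.norm_eq_sqrt_sq_add_sq]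
    congr 1
    simp only
    ring
  have hcos : Real.sqrt (c ^ 2 + d ^ 2) * Real.cos (Complex.arg ⟨d, -c⟩) = d := by
    rw [Complex.cos_arg hw0, hnorm]
    field_simp
  have hsin : Real.sqrt (c ^ 2 + d ^ 2) * Real.sin (Complex.arg ⟨d, -c⟩) = -c := by
    rw [Complex.sin_arg, hnorm]
    field_simp
  have hy : 0 < (a * d - b * c) / (c ^ 2 + d ^ 2) := div_pos hdet' hs
  refine ⟨⟨⟨(a * c + b * d) / (c ^ 2 + d ^ 2), (a * d - b * c) / (c ^ 2 + d ^ 2)⟩, hy⟩,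
    Real.sqrt (c ^ 2 + d ^ 2), hr, Complex.arg ⟨d, -c⟩, ?_⟩
  refine Units.ext (Matrix.ext fun i j => ?_)
  have hs' : c ^ 2 + d ^ 2 ≠ 0 := hs.ne'
  generalize Real.sqrt (c ^ 2 + d ^ 2) = r at hr hrr hcos hsin ⊢
  generalize Complex.arg ⟨d, -c⟩ = θ at hcos hsin ⊢
  fin_cases i <;> fin_cases j
  · show a = _
    simp [QOut.gzMat, QOut.scalR, QOut.kTheta, Matrix.mul_apply, Fin.sum_univ_two,
      UpperHalfPlane.im, UpperHalfPlane.re]
    have e : (a * d - b * c) / (c ^ 2 + d ^ 2) * r * Real.cos θ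
        + -((a * c + b * d) / (c ^ 2 + d ^ 2) * r * Real.sin θ)
        = (a * d - b * c) / (c ^ 2 + d ^ 2) * (r * Real.cos θ)
          + -((a * c + b * d) / (c ^ 2 + d ^ 2) * (r * Real.sin θ)) := by ring
    rw [e, hcos, hsin]
    field_simp
    ring
  · show b = _
    simp [QOut.gzMat, QOut.scalR, QOut.kTheta, Matrix.mul_apply, Fin.sum_univ_two,
      UpperHalfPlane.im, UpperHalfPlane.re]
    have e : (a * d - b * c) / (c ^ 2 + d ^ 2) * r * Real.sin θ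
        + (a * c + b * d) / (c ^ 2 + d ^ 2) * r * Real.cos θ
        = (a * d - b * c) / (c ^ 2 + d ^ 2) * (r * Real.sin θ)
          + (a * c + b * d) / (c ^ 2 + d ^ 2) * (r * Real.cos θ) := by ring
    rw [e, hcos, hsin]
    field_simp
    ring
  · show c = _
    simp [QOut.gzMat, QOut.scalR, QOut.kTheta, Matrix.mul_apply, Fin.sum_univ_two,
      UpperHalfPlane.im, UpperHalfPlane.re]
    rw [hsin, neg_neg]
  · show d = _
    simp [QOut.gzMat, QOut.scalR, QOut.kTheta, Matrix.mul_apply, Fin.sum_univ_two,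
      UpperHalfPlane.im, UpperHalfPlane.re]
    rw [hcos]

/-! ## Integral matrices -/

theorem int_mul698 (v : HeightOneSpectrum (𝓞 ℚ))
    {A B : Matrix (Fin 2) (Fin 2) (v.adicCompletion ℚ)}
    (hA : ∀ i j, A i j ∈ v.adicCompletionIntegers ℚ)
    (hB : ∀ i j, B i j ∈ v.adicCompletionIntegers ℚ) (i j : Fin 2) :
    (A * B) i j ∈ v.adicCompletionIntegers ℚ := by
  rw [Matrix.mul_apply, Fin.sum_univ_two]
  exact add_mem (mul_mem (hA i 0) (hB 0 j)) (mul_mem (hA i 1) (hB 1 j))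

theorem isIntegralAt_mul698 (v : HeightOneSpectrum (𝓞 ℚ)) {g g' : A0.G ℚ}
    (hg : A0.IsIntegralAt v g) (hg' : A0.IsIntegralAt v g') : A0.IsIntegralAt v (g * g') := by
  intro i j
  rw [H864.finComp_mul]
  exact int_mul698 v hg hg' i j

/-- a natural number prime to `p` is a unit at `p` -/
theorem valued_natCast_eq_one698 (p : Nat.Primes) {D : ℕ} (hpD : ¬ (p : ℕ) ∣ D) :
    Valued.v (((D : ℕ) : (ratPrime p).adicCompletion ℚ)) = 1 := by
  have h1 : (((D : ℕ) : (ratPrime p).adicCompletion ℚ))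
      = algebraMap ℚ ((ratPrime p).adicCompletion ℚ) (algebraMap (𝓞 ℚ) ℚ ((D : ℕ) : 𝓞 ℚ)) := by
    rw [map_natCast, map_natCast]
  rw [h1]
  have h2 : Valued.v (algebraMap ℚ ((ratPrime p).adicCompletion ℚ)
      (algebraMap (𝓞 ℚ) ℚ ((D : ℕ) : 𝓞 ℚ)))
      = (ratPrime p).valuation ℚ (algebraMap (𝓞 ℚ) ℚ ((D : ℕ) : 𝓞 ℚ)) :=
    HeightOneSpectrum.valuedAdicCompletion_eq_valuation' (ratPrime p) _
  rw [h2, HeightOneSpectrum.valuation_eq_one_iff_notMem, QOut.natCast_mem_ratPrime_iff]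
  exact hpD

theorem int_of_natCast_mul698 (p : Nat.Primes) {D : ℕ} (hpD : ¬ (p : ℕ) ∣ D)
    {x : (ratPrime p).adicCompletion ℚ}
    (h : ((D : ℕ) : (ratPrime p).adicCompletion ℚ) * x ∈ (ratPrime p).adicCompletionIntegers ℚ) :
    x ∈ (ratPrime p).adicCompletionIntegers ℚ := by
  rw [HeightOneSpectrum.mem_adicCompletionIntegers] at h ⊢
  rw [map_mul, valued_natCast_eq_one698 p hpD, one_mul] at h
  exact h

/-! ## Bounded denominators of an element of `GL₂(𝔸_ℚ)` -/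

theorem exists_den698 (g : A0.G ℚ) :
    ∃ D : ℕ, D ≠ 0 ∧ ∀ (v : HeightOneSpectrum (𝓞 ℚ)) (i j : Fin 2),
      ((D : ℕ) : v.adicCompletion ℚ) * A0.finComp v g i j ∈ v.adicCompletionIntegers ℚ := by
  choose D hD0 hD using fun ij : Fin 2 × Fin 2 =>
    exists_nat_mul_mem_adele698 (((g : Matrix (Fin 2) (Fin 2) (A0.Adl ℚ)) ij.1 ij.2).2)
  refine ⟨∏ ij : Fin 2 × Fin 2, D ij, Finset.prod_ne_zero_iff.2 fun ij _ => hD0 ij,
    fun v i j => ?_⟩
  exact dvd_mul_mem_int698 v (Finset.dvd_prod_of_mem D (Finset.mem_univ (i, j))) (hD (i, j) v)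

theorem exists_den_both698 (g : A0.G ℚ) :
    ∃ D : ℕ, D ≠ 0 ∧ (∀ (v : HeightOneSpectrum (𝓞 ℚ)) (i j : Fin 2),
      ((D : ℕ) : v.adicCompletion ℚ) * A0.finComp v g i j ∈ v.adicCompletionIntegers ℚ) ∧
      ∀ (v : HeightOneSpectrum (𝓞 ℚ)) (i j : Fin 2),
      ((D : ℕ) : v.adicCompletion ℚ) * A0.finComp v g⁻¹ i j ∈ v.adicCompletionIntegers ℚ := by
  obtain ⟨D₁, h₁, hD₁⟩ := exists_den698 g
  obtain ⟨D₂, h₂, hD₂⟩ := exists_den698 g⁻¹
  refine ⟨D₁ * D₂, Nat.mul_ne_zero h₁ h₂, fun v i j => ?_, fun v i j => ?_⟩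
  · exact dvd_mul_mem_int698 v (Dvd.intro _ rfl) (hD₁ v i j)
  · exact dvd_mul_mem_int698 v (Dvd.intro_left _ rfl) (hD₂ v i j)

/-! ## The level group -/

theorem finComp_inv_mul698 (v : HeightOneSpectrum (𝓞 ℚ)) (g : A0.G ℚ) :
    A0.finComp v g⁻¹ * A0.finComp v g = 1 := by
  rw [← H864.finComp_mul, inv_mul_cancel, H864.finComp_one]

theorem finComp_mul_inv698 (v : HeightOneSpectrum (𝓞 ℚ)) (g : A0.G ℚ) :
    A0.finComp v g * A0.finComp v g⁻¹ = 1 := by
  rw [← H864.finComp_mul, mul_inv_cancel, H864.finComp_one]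

theorem level_conj698 (𝔫 : Ideal (𝓞 ℚ)) (g₀ : A0.G ℚ)
    (hg₀ : ∀ w : InfinitePlace ℚ, A0.TrivAtInf w g₀) (N₀ D : ℕ) (hD : D ≠ 0) (hN0 : N₀ ≠ 0)
    (hN₀ : ((N₀ : ℕ) : 𝓞 ℚ) ∈ 𝔫)
    (hA : ∀ (v : HeightOneSpectrum (𝓞 ℚ)) (i j : Fin 2),
      ((D : ℕ) : v.adicCompletion ℚ) * A0.finComp v g₀ i j ∈ v.adicCompletionIntegers ℚ)
    (hB : ∀ (v : HeightOneSpectrum (𝓞 ℚ)) (i j : Fin 2),
      ((D : ℕ) : v.adicCompletion ℚ) * A0.finComp v g₀⁻¹ i j ∈ v.adicCompletionIntegers ℚ)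
    (u : A0.G ℚ) (hu : A0.InLevelGroup (QOut.lvl (N₀ * D * D)) u) :
    A0.InLevelGroup 𝔫 (g₀⁻¹ * u * g₀) := by
  refine ⟨fun w => trivAtInf_mul698 (trivAtInf_mul698 (trivAtInf_inv698 hg₀) hu.1) hg₀ w,
    fun v i j => ⟨?_, ?_⟩⟩
  · rw [H864.finComp_mul, H864.finComp_mul]
    exact conj_level698 𝔫 v N₀ D hD hN0 hN₀ _ _ _ (finComp_inv_mul698 v g₀) (hA v) (hB v)
      (fun k l => (hu.2 v k l).1) i j
  · have e : (g₀⁻¹ * u * g₀)⁻¹ = g₀⁻¹ * u⁻¹ * g₀ := by
      rw [mul_inv_rev, mul_inv_rev, inv_inv, mul_assoc]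
    rw [e, H864.finComp_mul, H864.finComp_mul]
    exact conj_level698 𝔫 v N₀ D hD hN0 hN₀ _ _ _ (finComp_inv_mul698 v g₀) (hA v) (hB v)
      (fun k l => (hu.2 v k l).2) i j

/-! ## Hecke operators -/

theorem scalar_comm698 (v : HeightOneSpectrum (𝓞 ℚ)) {z : A0.G ℚ}
    (hz : A0.IsScalarUniformizerAt v z) (g : A0.G ℚ) : z * g = g * z := by
  obtain ⟨⟨hinf, hfin⟩, c, -, hc⟩ := hz
  refine H864.G_ext (fun w => ?_) (fun v' => ?_)
  · rw [map_mul, map_mul, (H864.trivAtInf_iff_hom w z).1 (hinf w), one_mul, mul_one]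
  · by_cases hv : v' = v
    · subst hv
      refine Units.ext ?_
      rw [map_mul, map_mul]
      show A0.finComp v' z * A0.finComp v' g = A0.finComp v' g * A0.finComp v' z
      rw [hc]
      refine Matrix.ext fun i j => ?_
      rw [Matrix.diagonal_mul, Matrix.mul_diagonal, mul_comm]
    · rw [map_mul, map_mul, (H864.trivAtFin_iff_hom v' z).1 (hfin v' hv), one_mul, mul_one]

theorem isLocalAtFin_conj698 (v : HeightOneSpectrum (𝓞 ℚ)) {g₀ h : A0.G ℚ}
    (hg₀ : ∀ w : InfinitePlace ℚ, A0.TrivAtInf w g₀) (hh : A0.IsLocalAtFin v h) :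
    A0.IsLocalAtFin v (g₀⁻¹ * h * g₀) := by
  refine ⟨fun w => trivAtInf_mul698 (trivAtInf_mul698 (trivAtInf_inv698 hg₀) hh.1) hg₀ w,
    fun v' hv' => ?_⟩
  show A0.finComp v' (g₀⁻¹ * h * g₀) = 1
  have h1 : A0.finComp v' h = 1 := hh.2 v' hv'
  rw [H864.finComp_mul, H864.finComp_mul, h1, mul_one, finComp_inv_mul698]

theorem heckeCoset_conj698 (v : HeightOneSpectrum (𝓞 ℚ)) {g₀ : A0.G ℚ}
    (hg₀ : ∀ w : InfinitePlace ℚ, A0.TrivAtInf w g₀)
    (hA : A0.IsIntegralAt v g₀) (hB : A0.IsIntegralAt v g₀⁻¹)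
    [DecidableEq (A0.G ℚ)] {H : Finset (A0.G ℚ)} (hH : A0.IsHeckeCosetSystem v H) :
    A0.IsHeckeCosetSystem v (H.image fun h => g₀⁻¹ * h * g₀) := by
  have hinj : Function.Injective fun h : A0.G ℚ => g₀⁻¹ * h * g₀ := by
    intro h h' hhh
    exact mul_left_cancel (mul_right_cancel hhh)
  refine ⟨?_, ?_, ?_⟩
  · rw [Finset.card_image_of_injective _ hinj]
    exact hH.1
  · intro h' hh'
    obtain ⟨h, hh, rfl⟩ := Finset.mem_image.1 hh'
    obtain ⟨hloc, hint, hdet⟩ := hH.2.1 h hh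
    refine ⟨isLocalAtFin_conj698 v hg₀ hloc, isIntegralAt_mul698 v (isIntegralAt_mul698 v hB hint) hA,
      ?_⟩
    rw [H864.finComp_mul, H864.finComp_mul, Matrix.det_mul, Matrix.det_mul,
      mul_comm (A0.finComp v g₀⁻¹).det, mul_assoc, ← Matrix.det_mul, finComp_inv_mul698,
      Matrix.det_one, mul_one]
    exact hdet
  · intro h₁' hh₁' h₂' hh₂' hne hint
    obtain ⟨h₁, hh₁, rfl⟩ := Finset.mem_image.1 hh₁'
    obtain ⟨h₂, hh₂, rfl⟩ := Finset.mem_image.1 hh₂'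
    have hne' : h₁ ≠ h₂ := fun h => hne (by rw [h])
    refine hH.2.2 h₁ hh₁ h₂ hh₂ hne' ?_
    have e : h₁⁻¹ * h₂ = g₀ * ((g₀⁻¹ * h₁ * g₀)⁻¹ * (g₀⁻¹ * h₂ * g₀)) * g₀⁻¹ := by
      group
    rw [e]
    exact isIntegralAt_mul698 v (isIntegralAt_mul698 v hA hint) hB

theorem hecke_conj698 (φ : A0.G ℚ → ℂ) (v : HeightOneSpectrum (𝓞 ℚ)) (a b : ℂ)
    (hφ : A0.IsHeckeEigenAt φ v a b) {g₀ : A0.G ℚ}
    (hg₀ : ∀ w : InfinitePlace ℚ, A0.TrivAtInf w g₀)
    (hA : A0.IsIntegralAt v g₀) (hB : A0.IsIntegralAt v g₀⁻¹) :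
    A0.IsHeckeEigenAt (fun g => φ (g * g₀)) v a b := by
  classical
  refine ⟨fun H hH g => ?_, fun z hz g => ?_⟩
  · have h1 := hφ.1 _ (heckeCoset_conj698 v hg₀ hA hB hH) (g * g₀)
    have hinj : Function.Injective fun h : A0.G ℚ => g₀⁻¹ * h * g₀ := by
      intro h h' hhh
      exact mul_left_cancel (mul_right_cancel hhh)
    rw [Finset.sum_image (fun x _ y _ hxy => hinj hxy)] at h1
    rw [← h1]
    refine Finset.sum_congr rfl fun h _ => ?_
    show φ (g * h * g₀) = φ (g * g₀ * (g₀⁻¹ * h * g₀))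
    congr 1
    group
  · show φ (g * z * g₀) = b * φ (g * g₀)
    rw [mul_assoc, scalar_comm698 v hz g₀, ← mul_assoc]
    exact hφ.2 z hz (g * g₀)

theorem not_dvd_level698 (𝔫 : Ideal (𝓞 ℚ)) {N₀ : ℕ} (hN₀ : ((N₀ : ℕ) : 𝓞 ℚ) ∈ 𝔫)
    (p : Nat.Primes) (hp : ¬ (p : ℕ) ∣ N₀) : ¬ (ratPrime p).asIdeal ∣ 𝔫 := by
  intro hdvd
  have hle : 𝔫 ≤ (ratPrime p).asIdeal := Ideal.le_of_dvd hdvd
  exact hp ((QOut.natCast_mem_ratPrime_iff p N₀).1 (hle hN₀))

/-! ## The base point -/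

/-- `diag(-1, 1)` -/
def gammaNeg698 : GL (Fin 2) ℚ :=
  Matrix.GeneralLinearGroup.mkOfDetNeZero !![-1, 0; 0, 1] (by
    rw [Matrix.det_fin_two_of]; norm_num)

theorem det_toReal_gammaNeg698 :
    ((QOut.toReal gammaNeg698 : GL (Fin 2) ℝ) : Matrix (Fin 2) (Fin 2) ℝ).det = -1 := by
  rw [Matrix.det_fin_two]
  simp [QOut.toReal, gammaNeg698]

theorem exists_base698 (π : HeckeEigensystem ℚ ℂ) (φ : A0.G ℚ → ℂ)
    (hφ : QOut.IsHolWtOneFormFor π φ) :
    ∃ (z : ℍ) (g₀ : A0.G ℚ), (∀ w : InfinitePlace ℚ, A0.TrivAtInf w g₀) ∧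
      φ (QOut.locInf (QOut.gzMat z) * g₀) ≠ 0 := by
  obtain ⟨g, hg⟩ := hφ.ne_zero
  obtain ⟨g', hg', hdet⟩ : ∃ g' : A0.G ℚ, φ g' ≠ 0 ∧
      0 < ((realOf698 g' : GL (Fin 2) ℝ) : Matrix (Fin 2) (Fin 2) ℝ).det := by
    rcases lt_or_gt_of_ne (Matrix.GeneralLinearGroup.det_ne_zero (realOf698 g)) with hneg | hpos
    · refine ⟨QOut.diagQ gammaNeg698 * g, ?_, ?_⟩
      · have := hφ.left_inv gammaNeg698 g
        rw [show φ (QOut.diagQ gammaNeg698 * g) = φ g from this]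
        exact hg
      · rw [map_mul, realOf698_diagQ, Matrix.GeneralLinearGroup.coe_mul, Matrix.det_mul,
          det_toReal_gammaNeg698]
        linarith
    · exact ⟨g, hg, hpos⟩
  obtain ⟨z, r, hr, θ, hm⟩ := iwasawa698 (realOf698 g') hdet
  refine ⟨z, finOf698 g', trivAtInf_finOf698 g', ?_⟩
  have h1 : g' = QOut.locInf (QOut.gzMat z) * finOf698 g' * QOut.locInf (QOut.scalR r hr)
      * QOut.locInf (QOut.kTheta θ) := by
    have h2 := locInf_mul_finOf698 g'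
    rw [hm, map_mul, map_mul] at h2
    rw [mul_assoc (QOut.locInf (QOut.gzMat z)) (finOf698 g'),
      comm_locInf698 (trivAtInf_finOf698 g'),
      mul_assoc (QOut.locInf (QOut.gzMat z)), mul_assoc (QOut.locInf (QOut.scalR r hr)),
      comm_locInf698 (trivAtInf_finOf698 g'), ← mul_assoc (QOut.locInf (QOut.scalR r hr)),
      ← mul_assoc (QOut.locInf (QOut.gzMat z)), ← mul_assoc (QOut.locInf (QOut.gzMat z))]
    exact h2.symm
  intro h0
  apply hg'
  rw [h1, hφ.weight_one Rat.infinitePlace θ _ (QOut.isLocalAtInf_locInf _ _)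
      (infComp_kTheta698 _ θ),
    hφ.arch_scalar Rat.infinitePlace _ (isArchPosScalar698 _ r hr), h0, mul_zero]

/-! ## QA1 -/

theorem qa1_698 : QOut.QA1 := by
  intro π φ hφ
  obtain ⟨z, g₀, hg₀, hz⟩ := exists_base698 π φ hφ
  obtain ⟨D, hD0, hDA, hDB⟩ := exists_den_both698 g₀
  have hN₀0 : Ideal.absNorm π.level ≠ 0 := by
    intro h0
    rw [Ideal.absNorm_eq_zero_iff] at h0
    exact π.level_ne_bot h0
  have hN₀ : ((Ideal.absNorm π.level : ℕ) : 𝓞 ℚ) ∈ π.level := Ideal.absNorm_mem π.level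
  have hN : Ideal.absNorm π.level * D * D ≠ 0 :=
    Nat.mul_ne_zero (Nat.mul_ne_zero hN₀0 hD0) hD0
  refine ⟨Ideal.absNorm π.level * D * D, ⟨hN⟩, fun g => φ (g * g₀), ?_⟩
  refine
    { bdd := ?_
      left_inv := ?_
      level_inv := ?_
      arch_scalar := ?_
      weight_one := ?_
      holo := ?_
      hecke := ?_
      based := ?_ }
  · obtain ⟨C, hC⟩ := hφ.bdd
    exact ⟨C, fun g => hC _⟩
  · intro γ g
    show φ (QOut.diagQ γ * g * g₀) = φ (g * g₀)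
    rw [mul_assoc]
    exact hφ.left_inv γ (g * g₀)
  · intro u hu g
    show φ (g * u * g₀) = φ (g * g₀)
    have e : g * u * g₀ = g * g₀ * (g₀⁻¹ * u * g₀) := by group
    rw [e]
    exact hφ.level_inv _ (level_conj698 π.level g₀ hg₀ _ D hD0 hN₀0 hN₀ hDA hDB u hu) _
  · intro r hr g
    show φ (g * QOut.locInf (QOut.scalR r hr) * g₀) = φ (g * g₀)
    rw [mul_assoc, ← comm_locInf698 hg₀, ← mul_assoc]
    exact hφ.arch_scalar Rat.infinitePlace _ (isArchPosScalar698 _ r hr) _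
  · intro θ g
    show φ (g * QOut.locInf (QOut.kTheta θ) * g₀) = _ * φ (g * g₀)
    rw [mul_assoc, ← comm_locInf698 hg₀, ← mul_assoc]
    exact hφ.weight_one Rat.infinitePlace θ _ (QOut.isLocalAtInf_locInf _ _)
      (infComp_kTheta698 _ θ) _
  · intro g hg
    have h := hφ.holo Rat.infinitePlace (fun z => QOut.locInf (QOut.gzMat z))
      (fun z => ⟨QOut.isLocalAtInf_locInf _ _, infComp_gzMat698 _ z⟩) (g * g₀)
      (trivAtInf_mul698 hg hg₀)
    have e : QOut.famFn (fun g => φ (g * g₀)) g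
        = fun z : ℍ => (((Real.sqrt z.im : ℝ) : ℂ))⁻¹ * φ (QOut.locInf (QOut.gzMat z) * (g * g₀)) := by
      funext z
      simp only [QOut.famFn, mul_assoc]
    rw [e]
    exact h
  · intro p hp
    have hpN₀ : ¬ (p : ℕ) ∣ Ideal.absNorm π.level := fun h =>
      hp (Dvd.dvd.mul_right (Dvd.dvd.mul_right h D) D)
    have hpD : ¬ (p : ℕ) ∣ D := fun h => hp (Dvd.dvd.mul_left h _)
    exact hecke_conj698 φ (ratPrime p) _ _ (hφ.hecke (ratPrime p) (not_dvd_level698 π.level hN₀ p hpN₀))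
      hg₀ (fun i j => int_of_natCast_mul698 p hpD (hDA (ratPrime p) i j))
      (fun i j => int_of_natCast_mul698 p hpD (hDB (ratPrime p) i j))
  · exact ⟨z, hz⟩

end Fermat.Agent.LT.T7.H698

end
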