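import Fermat.Agent.LT.T7.H209.EkProdUpQ
import Fermat.Agent.LT.T7.H732.SupplyQGeoSpec

/-!
# Row LT, tower T7, LEAF T7.L2Q.1.F1op `EkProdUpOpQC732` (helper698, registry row 2466)

OFF-MAIN.  `ekProdUpOpQC698 F : H732.EkProdUpOpQC732 F` VERBATIM, UNCONDITIONAL.

Spec: `T7/H732/SupplyQGeoSpec.lean` (helper732@9d877645a, sha256 e535f2a7), byte-identical copy.
Proof: the generic statement `H209.isEKProd_up209` of helper209 (`T7/H209/LtrTop.lean`, the proof
of row 2314 `EkProdUpQC732`) with `l = 2`; only the operator fields `level_ne`, `level_g`,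
`sysg`, `sys'`, `unif'`, `up1_test`, `up1_ek`, `up2_test`, `up2_ek`, `up2_inv` of
`IsL2QPreOp732` and the fields `frame'`, `mem_S'`, `orbit_level` of `IsL2QBase962` are used.
-/

set_option autoImplicit false

open AutomorphicForm IsDedekindDomain NumberField MeasureTheory
open scoped ComplexConjugate

noncomputable section

namespace Fermat.Agent.LT.T7.H698

open Fermat.Agent.LT.H556 Fermat.Agent.LT.H556.A0 Fermat.Agent.LT.T7 Fermat.Agent.LT.T7.L2Q
  Fermat.Agent.LT.T7.H893 Fermat.Agent.LT.T7.H962 Fermat.Agent.LT.T7.H732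

attribute [local instance] Fermat.Agent.LT.T5.instMeasurableSpaceG

/-- **LEAF T7.L2Q.1.F1op = EKPROD-UP over `F`, operator form** (registry row 2466). -/
theorem ekProdUpOpQC698 (F : Type) [Field F] [NumberField F] : EkProdUpOpQC732 F := by
  intro Φ B hB g hg E hE X k m hX
  exact H209.isEKProd_up209 hB.frame' (H209.upI_ne_botQ209 hE.level_ne) hE.level_g (l := 2)
    (by norm_num) ((hB.mem_S' (B.o 0)).1 (hB.orbit_level 0)) hg.1 hE.sysg hE.sys' hE.unif'
    (hE.up1_test X hX) (hE.up1_ek X hX) hE.up2_test hE.up2_ek hE.up2_inv k m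

end Fermat.Agent.LT.T7.H698

end
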