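import Mathlib
import Fermat.Agent.LT.T3.H736.ASSpec

/-!
# Row LT, tower T7 (quadratic step, sphere means), helper698: the `N`-integral of a right
# translate on `GL₂(ℂ)` -- core

OFF-MAIN.  Mathlib + `LT/T3/H736/ASSpec.lean` (`upperGL`, `IsUnitary2`, `HasAbelN`).

* `iwasawa_sa698`: `g = [[p₁, q], [0, ρ]] · k`, `k ∈ U(2)`, `ρ > 0`, `ρ² = |g₁₀|² + |g₁₁|²`,
  `|p₁| ρ = |det g|` (Gram--Schmidt on the rows);
* `abelN_translate_sa698`: if `Φ` is right `U(2)`-invariant with `N`-integral `β` and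
  `det g = 1`, `P = |g₁₀|² + |g₁₁|²`, then
  `∫_ℂ Φ([[c₁, x], [0, c₂]] g) dx = |c₁| |c₂| P⁻¹ β(log |c₁| - (log P)/2, log |c₂| + (log P)/2)`.
-/

set_option autoImplicit false

open MeasureTheory Matrix
open scoped ComplexConjugate

noncomputable section

namespace Fermat.Agent.LT.T7.H698

open Fermat.Agent.LT.T3.AS

/-- The product of two upper triangular matrices. -/
theorem upperGL_mul_sa698 (c₁ c₂ p₁ p₂ : ℂˣ) (x q : ℂ) :
    upperGL c₁ c₂ x * upperGL p₁ p₂ q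
      = upperGL (c₁ * p₁) (c₂ * p₂) ((c₁ : ℂ) * q + x * (p₂ : ℂ)) := by
  apply Units.ext
  rw [Units.val_mul, upperGL_coe, upperGL_coe, upperGL_coe]
  ext i j
  fin_cases i <;> fin_cases j <;> simp [Matrix.mul_apply, Fin.sum_univ_two]

/-- Gram--Schmidt: the Iwasawa decomposition of `GL₂(ℂ)`. -/
theorem iwasawa_sa698 (g : GL (Fin 2) ℂ) :
    ∃ (p₁ p₂ : ℂˣ) (q : ℂ) (k : GL (Fin 2) ℂ) (ρ : ℝ), IsUnitary2 k ∧ g = upperGL p₁ p₂ q * k ∧
      0 < ρ ∧ (p₂ : ℂ) = ((ρ : ℝ) : ℂ) ∧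
      ρ ^ 2 = ‖(g : Matrix (Fin 2) (Fin 2) ℂ) 1 0‖ ^ 2 + ‖(g : Matrix (Fin 2) (Fin 2) ℂ) 1 1‖ ^ 2 ∧
      ‖(p₁ : ℂ)‖ * ρ = ‖(g : Matrix (Fin 2) (Fin 2) ℂ).det‖ := by
  set a := (g : Matrix (Fin 2) (Fin 2) ℂ) 0 0 with ha
  set b := (g : Matrix (Fin 2) (Fin 2) ℂ) 0 1 with hb
  set c := (g : Matrix (Fin 2) (Fin 2) ℂ) 1 0 with hc
  set e := (g : Matrix (Fin 2) (Fin 2) ℂ) 1 1 with he
  have hgM : (g : Matrix (Fin 2) (Fin 2) ℂ) = !![a, b; c, e] := by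
    ext i j
    fin_cases i <;> fin_cases j <;> rfl
  have hdet : (g : Matrix (Fin 2) (Fin 2) ℂ).det = a * e - b * c := Matrix.det_fin_two _
  have hdet0 : (g : Matrix (Fin 2) (Fin 2) ℂ).det ≠ 0 :=
    ((Matrix.isUnit_iff_isUnit_det _).1 g.isUnit).ne_zero
  have hP : 0 < ‖c‖ ^ 2 + ‖e‖ ^ 2 := by
    by_contra hle
    have h0 : ‖c‖ ^ 2 + ‖e‖ ^ 2 = 0 :=
      le_antisymm (not_lt.1 hle) (add_nonneg (sq_nonneg _) (sq_nonneg _))
    have hc0 : c = 0 := by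
      have : ‖c‖ ^ 2 = 0 := by nlinarith [sq_nonneg ‖c‖, sq_nonneg ‖e‖]
      exact norm_eq_zero.1 ((pow_eq_zero_iff two_ne_zero).1 this)
    have he0 : e = 0 := by
      have : ‖e‖ ^ 2 = 0 := by nlinarith [sq_nonneg ‖c‖, sq_nonneg ‖e‖]
      exact norm_eq_zero.1 ((pow_eq_zero_iff two_ne_zero).1 this)
    apply hdet0
    rw [hdet, hc0, he0, mul_zero, mul_zero, sub_zero]
  set ρ : ℝ := Real.sqrt (‖c‖ ^ 2 + ‖e‖ ^ 2) with hρ
  have hρpos : 0 < ρ := Real.sqrt_pos.2 hP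
  have hρsq : ρ ^ 2 = ‖c‖ ^ 2 + ‖e‖ ^ 2 := Real.sq_sqrt hP.le
  have hρne : ((ρ : ℝ) : ℂ) ≠ 0 := Complex.ofReal_ne_zero.2 hρpos.ne'
  -- the complex form of `ρ²`
  have hρc : ((ρ : ℝ) : ℂ) ^ 2 = c * conj c + e * conj e := by
    rw [Complex.mul_conj, Complex.mul_conj, ← Complex.ofReal_pow, hρsq, Complex.normSq_eq_norm_sq,
      Complex.normSq_eq_norm_sq]
    push_cast
    ring
  set δ := (g : Matrix (Fin 2) (Fin 2) ℂ).det with hδ
  let p₁ : ℂˣ := Units.mk0 (δ / ((ρ : ℝ) : ℂ)) (div_ne_zero hdet0 hρne)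
  let p₂ : ℂˣ := Units.mk0 ((ρ : ℝ) : ℂ) hρne
  let q : ℂ := (a * conj c + b * conj e) / ((ρ : ℝ) : ℂ)
  let kM : Matrix (Fin 2) (Fin 2) ℂ :=
    !![conj e / ((ρ : ℝ) : ℂ), -(conj c / ((ρ : ℝ) : ℂ)); c / ((ρ : ℝ) : ℂ), e / ((ρ : ℝ) : ℂ)]
  have hconjρ : conj ((ρ : ℝ) : ℂ) = ((ρ : ℝ) : ℂ) := Complex.conj_ofReal ρ
  have hkH : kMᴴ = !![e / ((ρ : ℝ) : ℂ), conj c / ((ρ : ℝ) : ℂ);
      -(c / ((ρ : ℝ) : ℂ)), conj e / ((ρ : ℝ) : ℂ)] := by
    ext i j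
    fin_cases i <;> fin_cases j <;>
      simp [kM, Matrix.conjTranspose_apply, hconjρ]
  have hkU : kM * kMᴴ = 1 := by
    rw [hkH]
    ext i j
    fin_cases i <;> fin_cases j
    · simp only [kM, Matrix.mul_apply, Fin.sum_univ_two, Fin.zero_eta, Fin.isValue,
        Matrix.of_apply, Matrix.cons_val', Matrix.cons_val_zero, Matrix.cons_val_one,
        Matrix.cons_val_fin_one, Matrix.one_apply_eq]
      field_simp
      linear_combination -hρc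
    · simp only [kM, Matrix.mul_apply, Fin.sum_univ_two, Fin.zero_eta, Fin.isValue,
        Matrix.of_apply, Matrix.cons_val', Matrix.cons_val_zero, Matrix.cons_val_one,
        Matrix.cons_val_fin_one, Fin.mk_one, ne_eq, zero_ne_one, not_false_eq_true,
        Matrix.one_apply_ne]
      field_simp
      ring
    · simp only [kM, Matrix.mul_apply, Fin.sum_univ_two, Fin.zero_eta, Fin.isValue,
        Matrix.of_apply, Matrix.cons_val', Matrix.cons_val_zero, Matrix.cons_val_one,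
        Matrix.cons_val_fin_one, Fin.mk_one, ne_eq, one_ne_zero, not_false_eq_true,
        Matrix.one_apply_ne]
      field_simp
      ring
    · simp only [kM, Matrix.mul_apply, Fin.sum_univ_two, Fin.isValue,
        Matrix.of_apply, Matrix.cons_val', Matrix.cons_val_zero, Matrix.cons_val_one,
        Matrix.cons_val_fin_one, Fin.mk_one, Matrix.one_apply_eq]
      field_simp
      linear_combination -hρc
  let k : GL (Fin 2) ℂ := ⟨kM, kMᴴ, hkU, mul_eq_one_comm.mp hkU⟩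
  refine ⟨p₁, p₂, q, k, ρ, hkU, ?_, hρpos, rfl, hρsq, ?_⟩
  · apply Units.ext
    rw [Units.val_mul, upperGL_coe, hgM]
    show !![a, b; c, e] = !![δ / ((ρ : ℝ) : ℂ), q; 0, ((ρ : ℝ) : ℂ)] * kM
    ext i j
    fin_cases i <;> fin_cases j
    · simp only [kM, q, Matrix.mul_apply, Fin.sum_univ_two, Fin.zero_eta, Fin.isValue,
        Matrix.of_apply, Matrix.cons_val', Matrix.cons_val_zero, Matrix.cons_val_one,
        Matrix.cons_val_fin_one]
      rw [hdet]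
      field_simp
      linear_combination a * hρc
    · simp only [kM, q, Matrix.mul_apply, Fin.sum_univ_two, Fin.zero_eta, Fin.isValue,
        Matrix.of_apply, Matrix.cons_val', Matrix.cons_val_zero, Matrix.cons_val_one,
        Matrix.cons_val_fin_one, Fin.mk_one]
      rw [hdet]
      field_simp
      linear_combination b * hρc
    · simp only [kM, Matrix.mul_apply, Fin.sum_univ_two, Fin.zero_eta, Fin.isValue,
        Matrix.of_apply, Matrix.cons_val', Matrix.cons_val_zero, Matrix.cons_val_one,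
        Matrix.cons_val_fin_one, Fin.mk_one, zero_mul, zero_add]
      field_simp
    · simp only [kM, Matrix.mul_apply, Fin.sum_univ_two, Fin.isValue,
        Matrix.of_apply, Matrix.cons_val', Matrix.cons_val_zero, Matrix.cons_val_one,
        Matrix.cons_val_fin_one, Fin.mk_one, zero_mul, zero_add]
      field_simp
  · show ‖δ / ((ρ : ℝ) : ℂ)‖ * ρ = ‖δ‖
    rw [norm_div, Complex.norm_real, Real.norm_of_nonneg hρpos.le]
    field_simp

/-- The `N`-integral of a right translate by `g`, `det g = 1`. -/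
theorem abelN_translate_sa698 {Φ : GL (Fin 2) ℂ → ℂ} {β : ℝ × ℝ → ℂ}
    (hΦr : ∀ k y : GL (Fin 2) ℂ, IsUnitary2 k → Φ (y * k) = Φ y) (hN : HasAbelN Φ β)
    (g : GL (Fin 2) ℂ) (hg : (g : Matrix (Fin 2) (Fin 2) ℂ).det = 1) (c₁ c₂ : ℂˣ) :
    ∫ x : ℂ, Φ (upperGL c₁ c₂ x * g)
      = ((‖(c₁ : ℂ)‖ * ‖(c₂ : ℂ)‖ : ℝ) : ℂ) *
        ((((‖(g : Matrix (Fin 2) (Fin 2) ℂ) 1 0‖ ^ 2 +
            ‖(g : Matrix (Fin 2) (Fin 2) ℂ) 1 1‖ ^ 2)⁻¹ : ℝ) : ℂ) *
          β (Real.log ‖(c₁ : ℂ)‖ - Real.log (‖(g : Matrix (Fin 2) (Fin 2) ℂ) 1 0‖ ^ 2 +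
                ‖(g : Matrix (Fin 2) (Fin 2) ℂ) 1 1‖ ^ 2) / 2,
              Real.log ‖(c₂ : ℂ)‖ + Real.log (‖(g : Matrix (Fin 2) (Fin 2) ℂ) 1 0‖ ^ 2 +
                ‖(g : Matrix (Fin 2) (Fin 2) ℂ) 1 1‖ ^ 2) / 2)) := by
  obtain ⟨p₁, p₂, q, k, ρ, hk, hgk, hρpos, hp₂, hρsq, hp₁⟩ := iwasawa_sa698 g
  rw [← hρsq]
  rw [hg, norm_one] at hp₁
  have hnp₁ : ‖(p₁ : ℂ)‖ = ρ⁻¹ := by
    field_simp
    exact hp₁
  have hnp₂ : ‖(p₂ : ℂ)‖ = ρ := by
    rw [hp₂, Complex.norm_real, Real.norm_of_nonneg hρpos.le]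
  have hc₁ : 0 < ‖(c₁ : ℂ)‖ := norm_pos_iff.2 c₁.ne_zero
  have hc₂ : 0 < ‖(c₂ : ℂ)‖ := norm_pos_iff.2 c₂.ne_zero
  have e1 : ∀ x : ℂ, Φ (upperGL c₁ c₂ x * g)
      = Φ (upperGL (c₁ * p₁) (c₂ * p₂) ((c₁ : ℂ) * q + ρ • x)) := by
    intro x
    rw [hgk, ← mul_assoc, hΦr k _ hk, upperGL_mul_sa698, hp₂, Complex.real_smul, mul_comm x]
  simp only [e1]
  have e2 : ∫ x : ℂ, Φ (upperGL (c₁ * p₁) (c₂ * p₂) ((c₁ : ℂ) * q + ρ • x))
      = |(ρ ^ 2)⁻¹| • ∫ x : ℂ, Φ (upperGL (c₁ * p₁) (c₂ * p₂) x) := by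
    have h1 := Measure.integral_comp_smul (volume : Measure ℂ)
      (fun x : ℂ => Φ (upperGL (c₁ * p₁) (c₂ * p₂) ((c₁ : ℂ) * q + x))) ρ
    rw [Complex.finrank_real_complex] at h1
    rw [h1, integral_add_left_eq_self (fun x : ℂ => Φ (upperGL (c₁ * p₁) (c₂ * p₂) x))]
  rw [e2, hN (c₁ * p₁) (c₂ * p₂)]
  have n1 : ‖((c₁ * p₁ : ℂˣ) : ℂ)‖ = ‖(c₁ : ℂ)‖ * ρ⁻¹ := by
    rw [Units.val_mul, norm_mul, hnp₁]
  have n2 : ‖((c₂ * p₂ : ℂˣ) : ℂ)‖ = ‖(c₂ : ℂ)‖ * ρ := by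
    rw [Units.val_mul, norm_mul, hnp₂]
  have l0 : Real.log (ρ ^ 2) / 2 = Real.log ρ := by
    rw [Real.log_pow]
    push_cast
    ring
  have l1 : Real.log (‖(c₁ : ℂ)‖ * ρ⁻¹) = Real.log ‖(c₁ : ℂ)‖ - Real.log (ρ ^ 2) / 2 := by
    rw [l0, Real.log_mul hc₁.ne' (inv_ne_zero hρpos.ne'), Real.log_inv]
    ring
  have l2 : Real.log (‖(c₂ : ℂ)‖ * ρ) = Real.log ‖(c₂ : ℂ)‖ + Real.log (ρ ^ 2) / 2 := by
    rw [l0, Real.log_mul hc₂.ne' hρpos.ne']
  rw [n1, n2, l1, l2, abs_of_pos (inv_pos.2 (pow_pos hρpos 2)), Complex.real_smul]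
  have hρc : ((ρ : ℝ) : ℂ) ≠ 0 := Complex.ofReal_ne_zero.2 hρpos.ne'
  push_cast
  field_simp

/-! ## Fubini with support in a box -/

section Swap

open Set Function

variable {X : Type*} [TopologicalSpace X] [T2Space X] [SecondCountableTopology X]
  [MeasurableSpace X] [BorelSpace X]

theorem integrable_uncurry_sa698 (μ : Measure X) [IsFiniteMeasureOnCompacts μ] [SFinite μ]
    (a b : ℝ) {f : ℝ → X → ℂ} (hf : Continuous (uncurry f)) {K : Set X} (hK : IsCompact K)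
    (hfK : ∀ t ∈ uIcc a b, ∀ x, x ∉ K → f t x = 0) :
    Integrable (uncurry f) ((volume.restrict (uIoc a b)).prod μ) := by
  have h1 : IntegrableOn (uncurry f) (uIcc a b ×ˢ K) (volume.prod μ) :=
    hf.continuousOn.integrableOn_compact (isCompact_uIcc.prod hK)
  have h2 : IntegrableOn (uncurry f) (uIoc a b ×ˢ univ) (volume.prod μ) := by
    refine h1.of_forall_sdiff_eq_zero (measurableSet_uIoc.prod MeasurableSet.univ) ?_
    rintro ⟨t, x⟩ ⟨ht, hx⟩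
    have ht' : t ∈ uIcc a b := uIoc_subset_uIcc ht.1
    apply hfK t ht'
    intro hxK
    exact hx ⟨ht', hxK⟩
  rwa [IntegrableOn, ← Measure.prod_restrict, Measure.restrict_univ] at h2

theorem swap1_sa698 (μ : Measure X) [IsFiniteMeasureOnCompacts μ] [SFinite μ]
    (a b : ℝ) {F : X → ℝ → ℂ} (hF : Continuous (uncurry F)) {K : Set X} (hK : IsCompact K)
    (hFK : ∀ x, ∀ t ∈ uIcc a b, x ∉ K → F x t = 0) :
    ∫ x, (∫ t in a..b, F x t) ∂μ = ∫ t in a..b, (∫ x, F x t ∂μ) := by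
  have hf : Continuous (uncurry fun (t : ℝ) (x : X) => F x t) :=
    hF.comp (continuous_snd.prodMk continuous_fst)
  exact (intervalIntegral_integral_swap
    (integrable_uncurry_sa698 μ a b hf hK fun t ht x hx => hFK x t ht hx)).symm

theorem swap2_sa698 (μ : Measure X) [IsFiniteMeasureOnCompacts μ] [SFinite μ]
    (a b c d : ℝ) {F : X → ℝ → ℝ → ℂ}
    (hF : Continuous fun p : X × ℝ × ℝ => F p.1 p.2.1 p.2.2) {K : Set X} (hK : IsCompact K)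
    (hFK : ∀ x, ∀ α ∈ uIcc a b, ∀ β ∈ uIcc c d, x ∉ K → F x α β = 0) :
    ∫ x, (∫ α in a..b, ∫ β in c..d, F x α β) ∂μ
      = ∫ α in a..b, ∫ β in c..d, (∫ x, F x α β ∂μ) := by
  have hG : Continuous (uncurry fun (x : X) (α : ℝ) => ∫ β in c..d, F x α β) := by
    have h1 : Continuous (uncurry fun (q : X × ℝ) (β : ℝ) => F q.1 q.2 β) :=
      hF.comp ((continuous_fst.comp continuous_fst).prodMk
        ((continuous_snd.comp continuous_fst).prodMk continuous_snd))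
    exact intervalIntegral.continuous_parametric_intervalIntegral_of_continuous' h1 c d
  rw [swap1_sa698 μ a b hG hK (fun x α hα hx => by
    apply intervalIntegral.integral_zero_ae
    filter_upwards with β hβ
    exact hFK x α hα β (uIoc_subset_uIcc hβ) hx)]
  apply intervalIntegral.integral_congr
  intro α hα
  have h2 : Continuous (uncurry fun (x : X) (β : ℝ) => F x α β) :=
    hF.comp (continuous_fst.prodMk (continuous_const.prodMk continuous_snd))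
  exact swap1_sa698 μ c d h2 hK (fun x β hβ hx => hFK x α hα β hβ hx)

end Swap

end Fermat.Agent.LT.T7.H698

end
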