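import Mathlib
import Fermat.Agent.LT.T6.Spec

/-!
# Row LT, tower T7, leaf T7.L2.1.H2a.A.3 M.8 `SphConvC445` (helper698): the abstract core

OFF-MAIN.  Mathlib + `LT/T6/Spec.lean` (`T6.convInt` only).  A locally compact second countable
Hausdorff group `H` with its Borel `σ`-algebra, a measure `μ` finite on compact sets, and the
two-parameter mean in the right variable

    mean2_sc698 a b c d s y Φ g = ∫ α in a..b, ∫ β in c..d, Φ (g * y α β) * s β.

* `swap2_sc698`: Fubini for `∫ x, ∫ α, ∫ β` (jointly continuous, support in `x` in one compact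
  set);
* `conv_mean_sc698` (F1): `A ⋆ (M B) = M (A ⋆ B)`;
* `mean_conv_sc698` (F2): `(M A) ⋆ B = A ⋆ (M B)` if `y = k a`, `y' = a k⁻¹`, `A` right invariant
  under `k`, `B` left invariant under `k`, `μ` right invariant, and
  `(M B)(h) = ∫∫ B(y' h) s`.
-/

set_option autoImplicit false

open MeasureTheory Set Function

noncomputable section

namespace Fermat.Agent.LT.T7.H698

open Fermat.Agent.LT.T6

section Swap

variable {X : Type*} [TopologicalSpace X] [T2Space X] [SecondCountableTopology X]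
  [MeasurableSpace X] [BorelSpace X]

/-- A jointly continuous function on `ℝ × X` whose support in `X` lies in one compact set is
integrable on `[a, b] × X`. -/
theorem integrable_uncurry_sc698 (μ : Measure X) [IsFiniteMeasureOnCompacts μ] [SFinite μ]
    (a b : ℝ) {f : ℝ → X → ℂ} (hf : Continuous (uncurry f)) {K : Set X} (hK : IsCompact K)
    (hfK : ∀ t x, x ∉ K → f t x = 0) :
    Integrable (uncurry f) ((volume.restrict (uIoc a b)).prod μ) := by
  have h1 : IntegrableOn (uncurry f) (Icc (min a b) (max a b) ×ˢ K) (volume.prod μ) :=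
    hf.continuousOn.integrableOn_compact (isCompact_Icc.prod hK)
  have h2 : IntegrableOn (uncurry f) (uIoc a b ×ˢ univ) (volume.prod μ) := by
    refine h1.of_forall_sdiff_eq_zero (measurableSet_uIoc.prod MeasurableSet.univ) ?_
    rintro ⟨t, x⟩ ⟨ht, hx⟩
    apply hfK
    intro hxK
    apply hx
    refine ⟨?_, hxK⟩
    have ht' : t ∈ uIoc a b := ht.1
    exact ⟨ht'.1.le, ht'.2⟩
  rwa [IntegrableOn, ← Measure.prod_restrict, Measure.restrict_univ] at h2

/-- Fubini: `∫ x, ∫ t in a..b, F x t = ∫ t in a..b, ∫ x, F x t`. -/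
theorem swap1_sc698 (μ : Measure X) [IsFiniteMeasureOnCompacts μ] [SFinite μ]
    (a b : ℝ) {F : X → ℝ → ℂ} (hF : Continuous (uncurry F)) {K : Set X} (hK : IsCompact K)
    (hFK : ∀ x t, x ∉ K → F x t = 0) :
    ∫ x, (∫ t in a..b, F x t) ∂μ = ∫ t in a..b, (∫ x, F x t ∂μ) := by
  have hf : Continuous (uncurry fun (t : ℝ) (x : X) => F x t) :=
    hF.comp (continuous_snd.prodMk continuous_fst)
  exact (intervalIntegral_integral_swap
    (integrable_uncurry_sc698 μ a b hf hK fun t x hx => hFK x t hx)).symm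

/-- Fubini: `∫ x, ∫ α, ∫ β, F x α β = ∫ α, ∫ β, ∫ x, F x α β`. -/
theorem swap2_sc698 (μ : Measure X) [IsFiniteMeasureOnCompacts μ] [SFinite μ]
    (a b c d : ℝ) {F : X → ℝ → ℝ → ℂ}
    (hF : Continuous fun p : X × ℝ × ℝ => F p.1 p.2.1 p.2.2) {K : Set X} (hK : IsCompact K)
    (hFK : ∀ x α β, x ∉ K → F x α β = 0) :
    ∫ x, (∫ α in a..b, ∫ β in c..d, F x α β) ∂μ
      = ∫ α in a..b, ∫ β in c..d, (∫ x, F x α β ∂μ) := by
  have hG : Continuous (uncurry fun (x : X) (α : ℝ) => ∫ β in c..d, F x α β) := by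
    have h1 : Continuous (uncurry fun (q : X × ℝ) (β : ℝ) => F q.1 q.2 β) :=
      hF.comp ((continuous_fst.comp continuous_fst).prodMk
        ((continuous_snd.comp continuous_fst).prodMk continuous_snd))
    exact intervalIntegral.continuous_parametric_intervalIntegral_of_continuous' h1 c d
  rw [swap1_sc698 μ a b hG hK (fun x α hx => by simp only [hFK x α _ hx,
    intervalIntegral.integral_zero])]
  congr 1
  funext α
  have h2 : Continuous (uncurry fun (x : X) (β : ℝ) => F x α β) :=
    hF.comp (continuous_fst.prodMk (continuous_const.prodMk continuous_snd))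
  exact swap1_sc698 μ c d h2 hK (fun x β hx => hFK x α β hx)

end Swap

section Mean

variable {H : Type} [Group H]

/-- The two-parameter mean in the right variable. -/
def mean2_sc698 (a b c d : ℝ) (s : ℝ → ℂ) (y : ℝ → ℝ → H) (Φ : H → ℂ) (g : H) : ℂ :=
  ∫ α in a..b, ∫ β in c..d, Φ (g * y α β) * s β

theorem mean2_apply_sc698 (a b c d : ℝ) (s : ℝ → ℂ) (y : ℝ → ℝ → H) (Φ : H → ℂ) (g : H) :
    mean2_sc698 a b c d s y Φ g = ∫ α in a..b, ∫ β in c..d, Φ (g * y α β) * s β := rfl

variable [TopologicalSpace H] [IsTopologicalGroup H] [T2Space H] [SecondCountableTopology H]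
  [MeasurableSpace H] [BorelSpace H]

/-- **F1**: `A ⋆ (M B) = M (A ⋆ B)`. -/
theorem conv_mean_sc698 (μ : Measure H) [IsFiniteMeasureOnCompacts μ] [SFinite μ]
    (a b c d : ℝ) {s : ℝ → ℂ} (hs : Continuous s) {y : ℝ → ℝ → H}
    (hy : Continuous fun p : ℝ × ℝ => y p.1 p.2) {A B : H → ℂ} (hA : Continuous A)
    (hAs : HasCompactSupport A) (hB : Continuous B) (g : H) :
    convInt μ A (mean2_sc698 a b c d s y B) g = mean2_sc698 a b c d s y (convInt μ A B) g := by
  show ∫ x, A x * (∫ α in a..b, ∫ β in c..d, B (x⁻¹ * g * y α β) * s β) ∂μ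
    = ∫ α in a..b, ∫ β in c..d, (∫ x, A x * B (x⁻¹ * (g * y α β)) ∂μ) * s β
  have e1 : ∀ x : H, A x * (∫ α in a..b, ∫ β in c..d, B (x⁻¹ * g * y α β) * s β)
      = ∫ α in a..b, ∫ β in c..d, A x * (B (x⁻¹ * g * y α β) * s β) := by
    intro x
    rw [← intervalIntegral.integral_const_mul]
    congr 1
    funext α
    rw [← intervalIntegral.integral_const_mul]
  simp only [e1]
  have hF : Continuous fun p : H × ℝ × ℝ => A p.1 * (B (p.1⁻¹ * g * y p.2.1 p.2.2) * s p.2.2) := by
    refine (hA.comp continuous_fst).mul ((hB.comp ?_).mul (hs.comp (continuous_snd.comp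
      continuous_snd)))
    exact ((continuous_inv.comp continuous_fst).mul continuous_const).mul
      (hy.comp continuous_snd)
  rw [swap2_sc698 μ a b c d hF hAs (fun x α β hx => by
    rw [image_eq_zero_of_notMem_tsupport hx, zero_mul])]
  congr 1
  funext α
  congr 1
  funext β
  rw [← integral_mul_const]
  congr 1
  funext x
  rw [mul_assoc, mul_assoc]

omit [T2Space H] [SecondCountableTopology H] in
/-- The two inner integrals of F2 agree (`μ` right invariant). -/
theorem inner_eq_sc698 (μ : Measure H) [μ.IsMulRightInvariant] {A B : H → ℂ} (k a g : H)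
    (hA : ∀ x, A (x * k) = A x) (hB : ∀ h, B (k * h) = B h) :
    ∫ x, A (x * (k * a)) * B (x⁻¹ * g) ∂μ = ∫ x, A x * B (a * k⁻¹ * (x⁻¹ * g)) ∂μ := by
  have h1 : ∫ x, A (x * (k * a)) * B (x⁻¹ * g) ∂μ = ∫ x, A x * B (a * (x⁻¹ * g)) ∂μ := by
    rw [← integral_mul_right_eq_self (fun x => A (x * (k * a)) * B (x⁻¹ * g)) (k * a)⁻¹]
    congr 1
    funext x
    have e1 : x * (k * a)⁻¹ * (k * a) = x := by group
    have e2 : (x * (k * a)⁻¹)⁻¹ * g = k * (a * (x⁻¹ * g)) := by group
    rw [e1, e2, hB]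
  have h2 : ∫ x, A x * B (a * k⁻¹ * (x⁻¹ * g)) ∂μ = ∫ x, A x * B (a * (x⁻¹ * g)) ∂μ := by
    rw [← integral_mul_right_eq_self (fun x => A x * B (a * k⁻¹ * (x⁻¹ * g))) k⁻¹]
    congr 1
    funext x
    have e1 : A (x * k⁻¹) = A x := by
      have := hA (x * k⁻¹)
      rw [inv_mul_cancel_right] at this
      exact this.symm
    have e2 : a * k⁻¹ * ((x * k⁻¹)⁻¹ * g) = a * (x⁻¹ * g) := by group
    rw [e1, e2]
  rw [h1, h2]

/-- **F2**: `(M A) ⋆ B = A ⋆ (M B)`. -/
theorem mean_conv_sc698 (μ : Measure H) [IsFiniteMeasureOnCompacts μ] [SFinite μ]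
    [μ.IsMulRightInvariant]
    (a b c d : ℝ) {s : ℝ → ℂ} (hs : Continuous s) {y y' : ℝ → ℝ → H}
    (hy : Continuous fun p : ℝ × ℝ => y p.1 p.2)
    (hy' : Continuous fun p : ℝ × ℝ => y' p.1 p.2)
    {A B : H → ℂ} (hA : Continuous A) (hAs : HasCompactSupport A) (hB : Continuous B)
    (hBs : HasCompactSupport B)
    (hyy : ∀ α β : ℝ, ∃ k t : H, y α β = k * t ∧ y' α β = t * k⁻¹ ∧ (∀ x, A (x * k) = A x) ∧
      ∀ h, B (k * h) = B h)
    (hMB : ∀ h : H, mean2_sc698 a b c d s y B h
      = ∫ α in a..b, ∫ β in c..d, B (y' α β * h) * s β) (g : H) :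
    convInt μ (mean2_sc698 a b c d s y A) B g = convInt μ A (mean2_sc698 a b c d s y B) g := by
  -- the left side
  have hL : convInt μ (mean2_sc698 a b c d s y A) B g
      = ∫ α in a..b, ∫ β in c..d, (∫ x, A (x * y α β) * B (x⁻¹ * g) ∂μ) * s β := by
    show ∫ x, (∫ α in a..b, ∫ β in c..d, A (x * y α β) * s β) * B (x⁻¹ * g) ∂μ = _
    have e1 : ∀ x : H, (∫ α in a..b, ∫ β in c..d, A (x * y α β) * s β) * B (x⁻¹ * g)
        = ∫ α in a..b, ∫ β in c..d, A (x * y α β) * s β * B (x⁻¹ * g) := by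
      intro x
      rw [← intervalIntegral.integral_mul_const]
      congr 1
      funext α
      rw [← intervalIntegral.integral_mul_const]
    simp only [e1]
    have hF : Continuous fun p : H × ℝ × ℝ =>
        A (p.1 * y p.2.1 p.2.2) * s p.2.2 * B (p.1⁻¹ * g) := by
      refine ((hA.comp (continuous_fst.mul (hy.comp continuous_snd))).mul
        (hs.comp (continuous_snd.comp continuous_snd))).mul (hB.comp ?_)
      exact (continuous_inv.comp continuous_fst).mul continuous_const
    have hK : IsCompact ((fun h : H => g * h⁻¹) '' tsupport B) :=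
      hBs.isCompact.image (continuous_const.mul continuous_inv)
    rw [swap2_sc698 μ a b c d hF hK (fun x α β hx => by
      have hx' : x⁻¹ * g ∉ tsupport B := by
        intro hmem
        apply hx
        refine ⟨x⁻¹ * g, hmem, ?_⟩
        show g * (x⁻¹ * g)⁻¹ = x
        group
      rw [image_eq_zero_of_notMem_tsupport hx', mul_zero])]
    congr 1
    funext α
    congr 1
    funext β
    rw [← integral_mul_const]
    congr 1
    funext x
    ring
  -- the right side
  have hR : convInt μ A (mean2_sc698 a b c d s y B) g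
      = ∫ α in a..b, ∫ β in c..d, (∫ x, A x * B (y' α β * (x⁻¹ * g)) ∂μ) * s β := by
    show ∫ x, A x * mean2_sc698 a b c d s y B (x⁻¹ * g) ∂μ = _
    simp only [hMB]
    have e1 : ∀ x : H, A x * (∫ α in a..b, ∫ β in c..d, B (y' α β * (x⁻¹ * g)) * s β)
        = ∫ α in a..b, ∫ β in c..d, A x * (B (y' α β * (x⁻¹ * g)) * s β) := by
      intro x
      rw [← intervalIntegral.integral_const_mul]
      congr 1
      funext α
      rw [← intervalIntegral.integral_const_mul]
    simp only [e1]
    have hF : Continuous fun p : H × ℝ × ℝ =>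
        A p.1 * (B (y' p.2.1 p.2.2 * (p.1⁻¹ * g)) * s p.2.2) := by
      refine (hA.comp continuous_fst).mul ((hB.comp ?_).mul
        (hs.comp (continuous_snd.comp continuous_snd)))
      exact (hy'.comp continuous_snd).mul
        ((continuous_inv.comp continuous_fst).mul continuous_const)
    rw [swap2_sc698 μ a b c d hF hAs (fun x α β hx => by
      rw [image_eq_zero_of_notMem_tsupport hx, zero_mul])]
    congr 1
    funext α
    congr 1
    funext β
    rw [← integral_mul_const]
    congr 1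
    funext x
    ring
  rw [hL, hR]
  congr 1
  funext α
  congr 1
  funext β
  obtain ⟨k, t, h1, h2, h3, h4⟩ := hyy α β
  rw [h1, h2, inner_eq_sc698 μ k t g h3 h4]

end Mean

end Fermat.Agent.LT.T7.H698

end
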