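import Mathlib
import Fermat.Agent.LT.T7.H445.StepMSpec
import Fermat.Agent.LT.T7.H698.SphConvCore
import Fermat.Agent.LT.T6.H698.ConvSoft
import Fermat.Agent.LT.T2.H555.CartanInf
import Fermat.Agent.LT.T6.H8.Unimod

/-!
# Row LT, tower T7, leaf T7.L2.1.H2a.A.3 M.8 `H445.SphConvC445` (helper698)

OFF-MAIN.  Spec: `LT/T7/H445/StepMSpec.lean` (helper445, sha256 95c0ff93), byte-identical copy.

    sphConvC_of698 : H445.SphArchC445 → H445.SphConvC445

The iterated convolution on `GL₂(ℂ)` with ONE factor replaced by its local sphere mean is the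
local sphere mean of the iterated convolution.

Proof.  `M` = the sphere mean, `C_n = Ψ_0 ⋆ ⋯ ⋆ Ψ_n`.
* F1 (`conv_mean_sc698`, Fubini): `A ⋆ M B = M (A ⋆ B)`.
* F2 (`mean_conv_sc698`): `M A ⋆ B = A ⋆ M B` for `A` right `U(2)`-invariant, `B`
  bi-invariant: `y(α,β) = k a_d`, `k = rotZ α rotY β ∈ U(2)`, `y* = a_d k⁻¹`; every Haar measure
  of `GL₂(ℂ)` is right invariant (`H8.rightInv_GL2C8`); a bi-`U(2)`-invariant function is
  invariant under `g ↦ g*` (singular value decomposition `H555.svd555`), applied to `B` and to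
  `M B` (bi-invariant by `SphArchC445`): `(M B)(h) = (M B)(h*) = ∫∫ B(y* h) sin β`.
* `C_n` is continuous with compact support and right `U(2)`-invariant.
* Induction on `n`: `n < j₀`: nothing changes; `n = j₀`: F1; `n > j₀`: F2 then F1.
-/

set_option autoImplicit false

open MeasureTheory Matrix
open scoped ComplexConjugate

noncomputable section

namespace Fermat.Agent.LT.T7.H698

open Fermat.Agent.LT.H556 Fermat.Agent.LT.H556.A0 Fermat.Agent.LT.T7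
open Fermat.Agent.LT.T7.H305 Fermat.Agent.LT.T7.H445 Fermat.Agent.LT

/-! ## 1. The matrices -/

theorem det_rotZ_sv698 (α : ℝ) : (rotZ α).det = 1 := by
  show (!![Complex.exp (Complex.I * ((α / 2 : ℝ) : ℂ)), 0;
     0, Complex.exp (-(Complex.I * ((α / 2 : ℝ) : ℂ)))] : Matrix (Fin 2) (Fin 2) ℂ).det = 1
  rw [Matrix.det_fin_two_of, mul_zero, sub_zero, ← Complex.exp_add, add_neg_cancel,
    Complex.exp_zero]

theorem det_rotY_sv698 (β : ℝ) : (rotY β).det = 1 := by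
  show (!![((Real.cos (β / 2) : ℝ) : ℂ), -((Real.sin (β / 2) : ℝ) : ℂ);
     ((Real.sin (β / 2) : ℝ) : ℂ), ((Real.cos (β / 2) : ℝ) : ℂ)] :
       Matrix (Fin 2) (Fin 2) ℂ).det = 1
  rw [Matrix.det_fin_two_of]
  have h := Real.cos_sq_add_sin_sq (β / 2)
  have h' : ((Real.cos (β / 2) : ℝ) : ℂ) ^ 2 + ((Real.sin (β / 2) : ℝ) : ℂ) ^ 2 = 1 := by
    exact_mod_cast h
  linear_combination h'

theorem det_torus_sv698 (d : ℝ) : (torus d).det = 1 := by
  show (!![((Real.exp (d / 2) : ℝ) : ℂ), 0;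
     0, ((Real.exp (-(d / 2)) : ℝ) : ℂ)] : Matrix (Fin 2) (Fin 2) ℂ).det = 1
  rw [Matrix.det_fin_two_of, mul_zero, sub_zero, ← Complex.ofReal_mul, ← Real.exp_add,
    add_neg_cancel, Real.exp_zero, Complex.ofReal_one]

theorem mul_conjT_two_sv698 (a b c d : ℂ) :
    (!![a, b; c, d] : Matrix (Fin 2) (Fin 2) ℂ) * (!![a, b; c, d] : Matrix (Fin 2) (Fin 2) ℂ)ᴴ
      = !![a * conj a + b * conj b, a * conj c + b * conj d;
          c * conj a + d * conj b, c * conj c + d * conj d] := by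
  ext i j
  fin_cases i <;> fin_cases j <;>
    simp [Matrix.mul_apply, Fin.sum_univ_two, Matrix.conjTranspose_apply]

theorem conjT_two_sv698 (a b c d : ℂ) :
    (!![a, b; c, d] : Matrix (Fin 2) (Fin 2) ℂ)ᴴ = !![conj a, conj c; conj b, conj d] := by
  ext i j
  fin_cases i <;> fin_cases j <;> simp [Matrix.conjTranspose_apply]

theorem rotZ_unitary_sv698 (α : ℝ) : rotZ α * (rotZ α)ᴴ = 1 := by
  have h1 : conj (Complex.exp (Complex.I * ((α / 2 : ℝ) : ℂ)))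
      = Complex.exp (-(Complex.I * ((α / 2 : ℝ) : ℂ))) := by
    rw [← Complex.exp_conj, map_mul, Complex.conj_I, Complex.conj_ofReal, neg_mul]
  have h2 : conj (Complex.exp (-(Complex.I * ((α / 2 : ℝ) : ℂ))))
      = Complex.exp (Complex.I * ((α / 2 : ℝ) : ℂ)) := by
    rw [← Complex.exp_conj, map_neg, map_mul, Complex.conj_I, Complex.conj_ofReal, neg_mul,
      neg_neg]
  have e1 : Complex.exp (Complex.I * ((α / 2 : ℝ) : ℂ)) *
      Complex.exp (-(Complex.I * ((α / 2 : ℝ) : ℂ))) = 1 := by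
    rw [← Complex.exp_add, add_neg_cancel, Complex.exp_zero]
  have e2 : Complex.exp (-(Complex.I * ((α / 2 : ℝ) : ℂ))) *
      Complex.exp (Complex.I * ((α / 2 : ℝ) : ℂ)) = 1 := by
    rw [mul_comm]; exact e1
  show (!![Complex.exp (Complex.I * ((α / 2 : ℝ) : ℂ)), 0;
     0, Complex.exp (-(Complex.I * ((α / 2 : ℝ) : ℂ)))] : Matrix (Fin 2) (Fin 2) ℂ) *
    (!![Complex.exp (Complex.I * ((α / 2 : ℝ) : ℂ)), 0;
     0, Complex.exp (-(Complex.I * ((α / 2 : ℝ) : ℂ)))] : Matrix (Fin 2) (Fin 2) ℂ)ᴴ = 1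
  simp only [mul_conjT_two_sv698, h1, h2, e1, e2, map_zero, mul_zero, zero_mul, add_zero,
    zero_add, Matrix.one_fin_two]

theorem rotY_unitary_sv698 (β : ℝ) : rotY β * (rotY β)ᴴ = 1 := by
  have h := Real.cos_sq_add_sin_sq (β / 2)
  have hc : ((Real.cos (β / 2) : ℝ) : ℂ) * ((Real.cos (β / 2) : ℝ) : ℂ) +
      ((Real.sin (β / 2) : ℝ) : ℂ) * ((Real.sin (β / 2) : ℝ) : ℂ) = 1 := by
    have h' : ((Real.cos (β / 2) : ℝ) : ℂ) ^ 2 + ((Real.sin (β / 2) : ℝ) : ℂ) ^ 2 = 1 := by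
      exact_mod_cast h
    linear_combination h'
  show (!![((Real.cos (β / 2) : ℝ) : ℂ), -((Real.sin (β / 2) : ℝ) : ℂ);
     ((Real.sin (β / 2) : ℝ) : ℂ), ((Real.cos (β / 2) : ℝ) : ℂ)] : Matrix (Fin 2) (Fin 2) ℂ) *
    (!![((Real.cos (β / 2) : ℝ) : ℂ), -((Real.sin (β / 2) : ℝ) : ℂ);
     ((Real.sin (β / 2) : ℝ) : ℂ), ((Real.cos (β / 2) : ℝ) : ℂ)] :
       Matrix (Fin 2) (Fin 2) ℂ)ᴴ = 1
  rw [mul_conjT_two_sv698, map_neg, Complex.conj_ofReal, Complex.conj_ofReal, Matrix.one_fin_two]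
  have e00 : ((Real.cos (β / 2) : ℝ) : ℂ) * ((Real.cos (β / 2) : ℝ) : ℂ) +
      -((Real.sin (β / 2) : ℝ) : ℂ) * -((Real.sin (β / 2) : ℝ) : ℂ) = 1 := by
    linear_combination hc
  have e01 : ((Real.cos (β / 2) : ℝ) : ℂ) * ((Real.sin (β / 2) : ℝ) : ℂ) +
      -((Real.sin (β / 2) : ℝ) : ℂ) * ((Real.cos (β / 2) : ℝ) : ℂ) = 0 := by ring
  have e10 : ((Real.sin (β / 2) : ℝ) : ℂ) * ((Real.cos (β / 2) : ℝ) : ℂ) +
      ((Real.cos (β / 2) : ℝ) : ℂ) * -((Real.sin (β / 2) : ℝ) : ℂ) = 0 := by ring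
  have e11 : ((Real.sin (β / 2) : ℝ) : ℂ) * ((Real.sin (β / 2) : ℝ) : ℂ) +
      ((Real.cos (β / 2) : ℝ) : ℂ) * ((Real.cos (β / 2) : ℝ) : ℂ) = 1 := by
    linear_combination hc
  rw [e00, e01, e10, e11]

theorem torus_star_sv698 (d : ℝ) : (torus d)ᴴ = torus d := by
  show (!![((Real.exp (d / 2) : ℝ) : ℂ), 0;
     0, ((Real.exp (-(d / 2)) : ℝ) : ℂ)] : Matrix (Fin 2) (Fin 2) ℂ)ᴴ
    = !![((Real.exp (d / 2) : ℝ) : ℂ), 0; 0, ((Real.exp (-(d / 2)) : ℝ) : ℂ)]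
  rw [conjT_two_sv698, Complex.conj_ofReal, Complex.conj_ofReal, map_zero]

theorem rot_unitary_sv698 (α β : ℝ) : (rotZ α * rotY β) * (rotZ α * rotY β)ᴴ = 1 := by
  rw [Matrix.conjTranspose_mul, Matrix.mul_assoc, ← Matrix.mul_assoc (rotY β),
    rotY_unitary_sv698, Matrix.one_mul, rotZ_unitary_sv698]

/-- The unitary part `k(α, β) = rotZ α * rotY β` in `GL₂(ℂ)`. -/
def kGL_sv698 (α β : ℝ) : GL (Fin 2) ℂ :=
  ⟨rotZ α * rotY β, (rotZ α * rotY β)ᴴ, rot_unitary_sv698 α β,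
    mul_eq_one_comm.mp (rot_unitary_sv698 α β)⟩

/-- The torus part `a_d` in `GL₂(ℂ)`. -/
def tGL_sv698 (d : ℝ) : GL (Fin 2) ℂ :=
  Matrix.GeneralLinearGroup.mkOfDetNeZero (torus d) (by rw [det_torus_sv698]; exact one_ne_zero)

theorem kGL_unitary_sv698 (α β : ℝ) :
    ((kGL_sv698 α β : GL (Fin 2) ℂ) : Matrix (Fin 2) (Fin 2) ℂ) *
      ((kGL_sv698 α β : GL (Fin 2) ℂ) : Matrix (Fin 2) (Fin 2) ℂ).conjTranspose = 1 :=
  rot_unitary_sv698 α β

theorem star_kGL_sv698 (α β : ℝ) : star (kGL_sv698 α β) = (kGL_sv698 α β)⁻¹ := by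
  apply Units.ext
  rw [Units.coe_star]
  rfl

theorem star_tGL_sv698 (d : ℝ) : star (tGL_sv698 d) = tGL_sv698 d := by
  apply Units.ext
  rw [Units.coe_star]
  exact torus_star_sv698 d

theorem sph_eq_sv698 {d : ℝ} {y : ℝ → ℝ → GL (Fin 2) ℂ} (hy : IsSphC445 d y) (α β : ℝ) :
    y α β = kGL_sv698 α β * tGL_sv698 d := by
  apply Units.ext
  rw [hy α β]
  rfl

theorem star_sph_sv698 {d : ℝ} {y : ℝ → ℝ → GL (Fin 2) ℂ} (hy : IsSphC445 d y) (α β : ℝ) :
    star (y α β) = tGL_sv698 d * (kGL_sv698 α β)⁻¹ := by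
  rw [sph_eq_sv698 hy, star_mul, star_tGL_sv698, star_kGL_sv698]

/-! ## 2. Continuity of the sphere family -/

theorem continuous_rotZ_sv698 : Continuous rotZ := by
  refine continuous_matrix fun i j => ?_
  fin_cases i <;> fin_cases j
  · show Continuous fun α : ℝ => Complex.exp (Complex.I * ((α / 2 : ℝ) : ℂ))
    fun_prop
  · exact continuous_const
  · exact continuous_const
  · show Continuous fun α : ℝ => Complex.exp (-(Complex.I * ((α / 2 : ℝ) : ℂ)))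
    fun_prop

theorem continuous_rotY_sv698 : Continuous rotY := by
  refine continuous_matrix fun i j => ?_
  fin_cases i <;> fin_cases j
  · show Continuous fun β : ℝ => ((Real.cos (β / 2) : ℝ) : ℂ)
    fun_prop
  · show Continuous fun β : ℝ => -((Real.sin (β / 2) : ℝ) : ℂ)
    fun_prop
  · show Continuous fun β : ℝ => ((Real.sin (β / 2) : ℝ) : ℂ)
    fun_prop
  · show Continuous fun β : ℝ => ((Real.cos (β / 2) : ℝ) : ℂ)
    fun_prop

theorem continuous_kGL_sv698 : Continuous fun p : ℝ × ℝ => kGL_sv698 p.1 p.2 := by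
  have h1 : Continuous fun p : ℝ × ℝ => rotZ p.1 * rotY p.2 :=
    (continuous_rotZ_sv698.comp continuous_fst).matrix_mul
      (continuous_rotY_sv698.comp continuous_snd)
  rw [Units.continuous_iff]
  constructor
  · exact h1
  · show Continuous fun p : ℝ × ℝ => (rotZ p.1 * rotY p.2)ᴴ
    exact h1.matrix_conjTranspose

theorem continuous_sph_sv698 {d : ℝ} {y : ℝ → ℝ → GL (Fin 2) ℂ} (hy : IsSphC445 d y) :
    Continuous fun p : ℝ × ℝ => y p.1 p.2 := by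
  have h : (fun p : ℝ × ℝ => y p.1 p.2) = fun p : ℝ × ℝ => kGL_sv698 p.1 p.2 * tGL_sv698 d := by
    funext p
    exact sph_eq_sv698 hy p.1 p.2
  rw [h]
  exact continuous_kGL_sv698.mul continuous_const

/-! ## 3. Bi-invariant functions are invariant under `g ↦ g*` -/

theorem isBiU_left_sv698 {Φ : GL (Fin 2) ℂ → ℂ} (hΦ : IsBiU445 Φ) (k g : GL (Fin 2) ℂ)
    (hk : (k : Matrix (Fin 2) (Fin 2) ℂ) * (k : Matrix (Fin 2) (Fin 2) ℂ).conjTranspose = 1) :
    Φ (k * g) = Φ g := by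
  have h := hΦ k 1 g hk (by simp)
  rwa [mul_one] at h

theorem isBiU_right_sv698 {Φ : GL (Fin 2) ℂ → ℂ} (hΦ : IsBiU445 Φ) (k g : GL (Fin 2) ℂ)
    (hk : (k : Matrix (Fin 2) (Fin 2) ℂ) * (k : Matrix (Fin 2) (Fin 2) ℂ).conjTranspose = 1) :
    Φ (g * k) = Φ g := by
  have h := hΦ 1 k g (by simp) hk
  rwa [one_mul] at h

theorem isBiU_star_sv698 {Φ : GL (Fin 2) ℂ → ℂ} (hΦ : IsBiU445 Φ) (g : GL (Fin 2) ℂ) :
    Φ (star g) = Φ g := by
  have hdet : (g : Matrix (Fin 2) (Fin 2) ℂ).det ≠ 0 := by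
    have h := (Matrix.isUnit_iff_isUnit_det _).1 g.isUnit
    exact h.ne_zero
  obtain ⟨k₁, k₂, dd, h1, h2, -, hg⟩ := T2.H555.svd555 (g : Matrix (Fin 2) (Fin 2) ℂ) hdet
  have h1' : k₁ᴴ * k₁ = 1 := mul_eq_one_comm.mp h1
  have h2' : k₂ᴴ * k₂ = 1 := mul_eq_one_comm.mp h2
  let K₁ : GL (Fin 2) ℂ := ⟨k₁, k₁ᴴ, h1, h1'⟩
  let K₂ : GL (Fin 2) ℂ := ⟨k₂, k₂ᴴ, h2, h2'⟩
  let Dg : GL (Fin 2) ℂ := K₁⁻¹ * g * K₂⁻¹
  have hD : (Dg : Matrix (Fin 2) (Fin 2) ℂ) = Matrix.diagonal (fun i => ((dd i : ℝ) : ℂ)) := by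
    show k₁ᴴ * (g : Matrix (Fin 2) (Fin 2) ℂ) * k₂ᴴ = _
    rw [hg]
    calc k₁ᴴ * (k₁ * Matrix.diagonal (fun i => ((dd i : ℝ) : ℂ)) * k₂) * k₂ᴴ
        = (k₁ᴴ * k₁) * Matrix.diagonal (fun i => ((dd i : ℝ) : ℂ)) * (k₂ * k₂ᴴ) := by
          simp only [Matrix.mul_assoc]
      _ = Matrix.diagonal (fun i => ((dd i : ℝ) : ℂ)) := by
          rw [h1', h2, Matrix.one_mul, Matrix.mul_one]
  have hDs : star Dg = Dg := by
    apply Units.ext
    rw [Units.coe_star, hD]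
    show (Matrix.diagonal fun i => ((dd i : ℝ) : ℂ))ᴴ = _
    rw [Matrix.diagonal_conjTranspose]
    congr 1
    funext i
    exact Complex.conj_ofReal _
  have hgK : g = K₁ * Dg * K₂ := by
    show g = K₁ * (K₁⁻¹ * g * K₂⁻¹) * K₂
    group
  have hK₁ : (K₁ : Matrix (Fin 2) (Fin 2) ℂ) * (K₁ : Matrix (Fin 2) (Fin 2) ℂ).conjTranspose = 1 :=
    h1
  have hK₂ : (K₂ : Matrix (Fin 2) (Fin 2) ℂ) * (K₂ : Matrix (Fin 2) (Fin 2) ℂ).conjTranspose = 1 :=
    h2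
  have hsK₁ : ((star K₁ : GL (Fin 2) ℂ) : Matrix (Fin 2) (Fin 2) ℂ) *
      ((star K₁ : GL (Fin 2) ℂ) : Matrix (Fin 2) (Fin 2) ℂ).conjTranspose = 1 := by
    rw [Units.coe_star]
    show k₁ᴴ * k₁ᴴᴴ = 1
    rw [Matrix.conjTranspose_conjTranspose]
    exact h1'
  have hsK₂ : ((star K₂ : GL (Fin 2) ℂ) : Matrix (Fin 2) (Fin 2) ℂ) *
      ((star K₂ : GL (Fin 2) ℂ) : Matrix (Fin 2) (Fin 2) ℂ).conjTranspose = 1 := by
    rw [Units.coe_star]
    show k₂ᴴ * k₂ᴴᴴ = 1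
    rw [Matrix.conjTranspose_conjTranspose]
    exact h2'
  have e1 : Φ g = Φ Dg := by
    rw [hgK]
    exact hΦ K₁ K₂ Dg hK₁ hK₂
  have e2 : Φ (star g) = Φ Dg := by
    rw [hgK, star_mul, star_mul, hDs, ← mul_assoc]
    exact hΦ (star K₂) (star K₁) Dg hsK₂ hsK₁
  rw [e1, e2]

/-! ## 4. The measure -/

/-- The Borel `σ`-algebra of `GL₂(ℂ)` (LOCAL instance of this file). -/
local instance borelGLC_sv698 : MeasurableSpace (GL (Fin 2) ℂ) := borel _

local instance borelSpaceGLC_sv698 : BorelSpace (GL (Fin 2) ℂ) := ⟨rfl⟩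

/-- The weight `sin β`. -/
def sinW_sv698 (β : ℝ) : ℂ := ((Real.sin β : ℝ) : ℂ)

theorem continuous_sinW_sv698 : Continuous sinW_sv698 :=
  Complex.continuous_ofReal.comp Real.continuous_sin

theorem sphMean_eq_sv698 (y : ℝ → ℝ → GL (Fin 2) ℂ) (Φ : GL (Fin 2) ℂ → ℂ) :
    sphMeanC445 y Φ = mean2_sc698 0 (2 * Real.pi) 0 Real.pi sinW_sv698 y Φ := rfl

theorem convL_zero_sv698 (μc : Measure (GL (Fin 2) ℂ)) (Φ : ℕ → GL (Fin 2) ℂ → ℂ) :
    convL305 μc Φ 0 = Φ 0 := rfl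

theorem convL_succ_sv698 (μc : Measure (GL (Fin 2) ℂ)) (Φ : ℕ → GL (Fin 2) ℂ → ℂ) (j : ℕ) :
    convL305 μc Φ (j + 1) = T6.convInt μc (convL305 μc Φ j) (Φ (j + 1)) := rfl

/-- Right `U(2)`-invariance. -/
def IsRightU_sv698 (Φ : GL (Fin 2) ℂ → ℂ) : Prop :=
  ∀ k g : GL (Fin 2) ℂ,
    (k : Matrix (Fin 2) (Fin 2) ℂ) * (k : Matrix (Fin 2) (Fin 2) ℂ).conjTranspose = 1 →
    Φ (g * k) = Φ g

theorem isRightU_conv_sv698 (μc : Measure (GL (Fin 2) ℂ)) (A : GL (Fin 2) ℂ → ℂ)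
    {B : GL (Fin 2) ℂ → ℂ} (hB : IsRightU_sv698 B) : IsRightU_sv698 (T6.convInt μc A B) := by
  intro k g hk
  rw [T6.H698.convInt_mul_right698, T6.H698.convInt_apply698]
  congr 1
  funext x
  rw [hB k (x⁻¹ * g) hk]

/-- The iterated convolutions of good functions are continuous with compact support and right
`U(2)`-invariant. -/
theorem convL_good_sv698 (μc : Measure (GL (Fin 2) ℂ)) [Measure.IsHaarMeasure μc]
    (Ψ : ℕ → GL (Fin 2) ℂ → ℂ) (N : ℕ) (hΨ : ∀ j : ℕ, j ≤ N → IsArchGood445 (Ψ j)) :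
    ∀ n : ℕ, n ≤ N → Continuous (convL305 μc Ψ n) ∧ HasCompactSupport (convL305 μc Ψ n) ∧
      IsRightU_sv698 (convL305 μc Ψ n) := by
  have := T6.H8.locallyCompactSpace_GL2C8
  have := T6.H8.secondCountableTopology_GL2C8
  intro n
  induction n with
  | zero =>
    intro h0
    obtain ⟨h1, h2, -, h4⟩ := hΨ 0 h0
    exact ⟨h1, h2, fun k g hk => isBiU_right_sv698 h4 k g hk⟩
  | succ n ih =>
    intro hn
    obtain ⟨c1, c2, -⟩ := ih (Nat.le_of_succ_le hn)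
    obtain ⟨h1, h2, -, h4⟩ := hΨ (n + 1) hn
    rw [convL_succ_sv698]
    exact ⟨T6.H698.continuous_convInt698 μc c1 c2 h1,
      T6.H698.hasCompactSupport_convInt698 μc c2 h2,
      isRightU_conv_sv698 μc _ fun k g hk => isBiU_right_sv698 h4 k g hk⟩

/-! ## 5. The leaf -/

/-- **LEAF M.8 = SPH-CONV**, from `SphArchC445`. -/
theorem sphConvC_of698 (hArch : SphArchC445) : SphConvC445 := by
  intro μc hμ d y hy N Ψ hΨ j₀ hj₀
  have := hμ
  have := T6.H8.locallyCompactSpace_GL2C8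
  have := T6.H8.secondCountableTopology_GL2C8
  have hri : μc.IsMulRightInvariant := ⟨(T6.H8.rightInv_GL2C8 μc).1⟩
  have hyc := continuous_sph_sv698 hy
  have hy'c : Continuous fun p : ℝ × ℝ => star (y p.1 p.2) := continuous_star.comp hyc
  have hgood := convL_good_sv698 μc Ψ N hΨ
  -- F1 and F2 for the sphere mean
  have F1 : ∀ A B : GL (Fin 2) ℂ → ℂ, Continuous A → HasCompactSupport A → Continuous B →
      T6.convInt μc A (sphMeanC445 y B) = sphMeanC445 y (T6.convInt μc A B) := by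
    intro A B hA hAs hB
    funext g
    rw [sphMean_eq_sv698, sphMean_eq_sv698]
    exact conv_mean_sc698 μc 0 (2 * Real.pi) 0 Real.pi continuous_sinW_sv698 hyc hA hAs hB g
  have F2 : ∀ A B : GL (Fin 2) ℂ → ℂ, Continuous A → HasCompactSupport A →
      IsRightU_sv698 A → IsArchGood445 B →
      T6.convInt μc (sphMeanC445 y A) B = T6.convInt μc A (sphMeanC445 y B) := by
    intro A B hA hAs hAr hB
    obtain ⟨hBc, hBs, hBj, hBu⟩ := hB
    have hMBu : IsBiU445 (sphMeanC445 y B) := (hArch d y hy B ⟨hBc, hBs, hBj, hBu⟩).2.2.2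
    funext g
    rw [sphMean_eq_sv698, sphMean_eq_sv698]
    refine mean_conv_sc698 μc 0 (2 * Real.pi) 0 Real.pi continuous_sinW_sv698
      (y' := fun α β => star (y α β)) hyc hy'c hA hAs hBc hBs ?_ ?_ g
    · intro α β
      refine ⟨kGL_sv698 α β, tGL_sv698 d, sph_eq_sv698 hy α β, star_sph_sv698 hy α β, ?_, ?_⟩
      · intro x
        exact hAr _ x (kGL_unitary_sv698 α β)
      · intro h
        exact isBiU_left_sv698 hBu _ h (kGL_unitary_sv698 α β)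
    · intro h
      rw [← sphMean_eq_sv698, ← isBiU_star_sv698 hMBu h]
      show (∫ α in (0 : ℝ)..(2 * Real.pi), ∫ β in (0 : ℝ)..Real.pi,
          B (star h * y α β) * ((Real.sin β : ℝ) : ℂ)) = _
      congr 1
      funext α
      congr 1
      funext β
      rw [← isBiU_star_sv698 hBu (star h * y α β), star_mul, star_star]
      rfl
  -- the induction
  set Ψ' : ℕ → GL (Fin 2) ℂ → ℂ := fun j => if j = j₀ then sphMeanC445 y (Ψ j₀) else Ψ j
    with hΨ'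
  have key : ∀ n : ℕ, n ≤ N →
      (n < j₀ → convL305 μc Ψ' n = convL305 μc Ψ n) ∧
        (j₀ ≤ n → convL305 μc Ψ' n = sphMeanC445 y (convL305 μc Ψ n)) := by
    intro n
    induction n with
    | zero =>
      intro _
      constructor
      · intro h0
        rw [convL_zero_sv698, convL_zero_sv698]
        show (if 0 = j₀ then sphMeanC445 y (Ψ j₀) else Ψ 0) = Ψ 0
        rw [if_neg (Nat.ne_of_lt h0)]
      · intro h0
        have hj : j₀ = 0 := Nat.le_zero.1 h0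
        rw [convL_zero_sv698, convL_zero_sv698]
        show (if 0 = j₀ then sphMeanC445 y (Ψ j₀) else Ψ 0) = sphMeanC445 y (Ψ 0)
        rw [if_pos hj.symm, hj]
    | succ n ih =>
      intro hn
      have hn' : n ≤ N := Nat.le_of_succ_le hn
      obtain ⟨ih1, ih2⟩ := ih hn'
      obtain ⟨c1, c2, c3⟩ := hgood n hn'
      have hB := hΨ (n + 1) hn
      constructor
      · intro hlt
        rw [convL_succ_sv698, convL_succ_sv698, ih1 (Nat.lt_of_succ_lt hlt)]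
        show T6.convInt μc (convL305 μc Ψ n)
          (if n + 1 = j₀ then sphMeanC445 y (Ψ j₀) else Ψ (n + 1)) = _
        rw [if_neg (Nat.ne_of_lt hlt)]
      · intro hle
        rcases Nat.eq_or_lt_of_le hle with heq | hlt
        · -- n + 1 = j₀
          rw [convL_succ_sv698, convL_succ_sv698, ih1 (by omega)]
          show T6.convInt μc (convL305 μc Ψ n)
            (if n + 1 = j₀ then sphMeanC445 y (Ψ j₀) else Ψ (n + 1)) = _
          rw [if_pos heq.symm, heq]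
          rw [← heq] at hB ⊢
          exact F1 _ _ c1 c2 hB.1
        · -- j₀ ≤ n
          rw [convL_succ_sv698, convL_succ_sv698, ih2 (by omega)]
          show T6.convInt μc (sphMeanC445 y (convL305 μc Ψ n))
            (if n + 1 = j₀ then sphMeanC445 y (Ψ j₀) else Ψ (n + 1)) = _
          rw [if_neg (by omega), F2 _ _ c1 c2 c3 hB, F1 _ _ c1 c2 hB.1]
  exact (key N le_rfl).2 hj₀

end Fermat.Agent.LT.T7.H698

end
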