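import Mathlib
import Fermat.Agent.LT.T7.H445.StepMSpec
import Fermat.Agent.LT.T7.H698.SphAbelCore
import Fermat.Agent.LT.T7.H698.SphConv

/-!
# Row LT, tower T7 (quadratic step `M_{w,d}`, upstairs), helper698: THE `N`-INTEGRAL OF THE
# SPHERE MEAN on `GL₂(ℂ)`

OFF-MAIN.  Complete proofs, nothing assumed.  Vocabulary: `T3.AS.HasAbelN`, `T3.AS.IsSymBump`
(`LT/T3/H736/ASSpec.lean`), `H445.IsSphC445`, `H445.sphMeanC445` (`LT/T7/H445/StepMSpec.lean`).

    hasAbelN_sphMean698 : IsSphC445 d y → Continuous Φ → HasCompactSupport Φ →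
      (∀ k g, IsUnitary2 k → Φ (g * k) = Φ g) → HasAbelN Φ β →
      HasAbelN (sphMeanC445 y Φ) (abelMean698 d β)

with `abelMean698 d β u = 2π ∫_0^π (sin b / P) β(u₁ - (log P)/2, u₂ + (log P)/2) db`,
`P = P(d, b) = cosh d - cos b sinh d` (EVERY `d`, also `d = 0`), and for `d ≠ 0`
(`abelMean_eq698`, `abelMean_eq_half698`)

    abelMean698 d β u = (2π / sinh d) ∫_{-d}^{d} β(u₁ - t/2, u₂ + t/2) dt
                      = (4π / sinh d) ∫_{-d/2}^{d/2} β(u₁ + a, u₂ - a) da,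

and `isSymBump_abelMean698 : IsSymBump β → IsSymBump (abelMean698 d β)`.

Proof.  `y(α, b) = rotZ α · rotY b · torus d` has determinant `1` and second row of square
norm `P(d, b)`; `abelN_translate_sa698` (Iwasawa decomposition) computes the `N`-integral of
the right translate; Fubini (`swap2_sa698`); the substitution `t = log P(d, b)`.
-/

set_option autoImplicit false
set_option linter.style.haveILetI false

open MeasureTheory Matrix Set Function
open scoped ComplexConjugate ContDiff Convolution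

noncomputable section

namespace Fermat.Agent.LT.T7.H698

open Fermat.Agent.LT.H556 Fermat.Agent.LT.H556.A0 Fermat.Agent.LT.T7
open Fermat.Agent.LT.T7.H305 Fermat.Agent.LT.T7.H445 Fermat.Agent.LT
open Fermat.Agent.LT.T3.AS

/-! ## 1. The second row of the sphere family -/

/-- `P(d, b) = cosh d - cos b · sinh d`: the square norm of the second row of `y(α, b)`. -/
def sphP698 (d b : ℝ) : ℝ := Real.cosh d - Real.cos b * Real.sinh d

theorem sphP_pos698 (d b : ℝ) : 0 < sphP698 d b := by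
  have h1 : Real.sinh d < Real.cosh d := Real.sinh_lt_cosh d
  have h2 : -Real.sinh d < Real.cosh d := by
    have := Real.sinh_lt_cosh (-d)
    rwa [Real.sinh_neg, Real.cosh_neg] at this
  have h3 : |Real.cos b * Real.sinh d| ≤ |Real.sinh d| := by
    rw [abs_mul]
    exact mul_le_of_le_one_left (abs_nonneg _) (Real.abs_cos_le_one b)
  have h4 : |Real.sinh d| < Real.cosh d := abs_lt.2 ⟨by linarith, h1⟩
  have h5 := le_abs_self (Real.cos b * Real.sinh d)
  show 0 < Real.cosh d - Real.cos b * Real.sinh d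
  linarith

theorem sphP_zero698 (b : ℝ) : sphP698 0 b = 1 := by
  show Real.cosh 0 - Real.cos b * Real.sinh 0 = 1
  rw [Real.cosh_zero, Real.sinh_zero, mul_zero, sub_zero]

theorem continuous_sphP698 (d : ℝ) : Continuous (sphP698 d) := by
  show Continuous fun b : ℝ => Real.cosh d - Real.cos b * Real.sinh d
  fun_prop

theorem det_sph_sa698 {d : ℝ} {y : ℝ → ℝ → GL (Fin 2) ℂ} (hy : IsSphC445 d y) (α b : ℝ) :
    ((y α b : GL (Fin 2) ℂ) : Matrix (Fin 2) (Fin 2) ℂ).det = 1 := by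
  rw [hy α b, Matrix.det_mul, Matrix.det_mul, det_rotZ_sv698, det_rotY_sv698, det_torus_sv698,
    mul_one, mul_one]

theorem row_sph_sa698 {d : ℝ} {y : ℝ → ℝ → GL (Fin 2) ℂ} (hy : IsSphC445 d y) (α b : ℝ) :
    ‖((y α b : GL (Fin 2) ℂ) : Matrix (Fin 2) (Fin 2) ℂ) 1 0‖ ^ 2 +
      ‖((y α b : GL (Fin 2) ℂ) : Matrix (Fin 2) (Fin 2) ℂ) 1 1‖ ^ 2 = sphP698 d b := by
  rw [hy α b]
  have e : (rotZ α * rotY b * torus d : Matrix (Fin 2) (Fin 2) ℂ)
      = (!![Complex.exp (Complex.I * ((α / 2 : ℝ) : ℂ)), 0;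
          0, Complex.exp (-(Complex.I * ((α / 2 : ℝ) : ℂ)))] : Matrix (Fin 2) (Fin 2) ℂ) *
        !![((Real.cos (b / 2) : ℝ) : ℂ), -((Real.sin (b / 2) : ℝ) : ℂ);
          ((Real.sin (b / 2) : ℝ) : ℂ), ((Real.cos (b / 2) : ℝ) : ℂ)] *
        !![((Real.exp (d / 2) : ℝ) : ℂ), 0; 0, ((Real.exp (-(d / 2)) : ℝ) : ℂ)] := rfl
  rw [e]
  have hn : ‖Complex.exp (-(Complex.I * ((α / 2 : ℝ) : ℂ)))‖ = 1 := by
    rw [Complex.norm_exp]
    simp
  have e10 : ((!![Complex.exp (Complex.I * ((α / 2 : ℝ) : ℂ)), 0;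
          0, Complex.exp (-(Complex.I * ((α / 2 : ℝ) : ℂ)))] : Matrix (Fin 2) (Fin 2) ℂ) *
        !![((Real.cos (b / 2) : ℝ) : ℂ), -((Real.sin (b / 2) : ℝ) : ℂ);
          ((Real.sin (b / 2) : ℝ) : ℂ), ((Real.cos (b / 2) : ℝ) : ℂ)] *
        !![((Real.exp (d / 2) : ℝ) : ℂ), 0; 0, ((Real.exp (-(d / 2)) : ℝ) : ℂ)]) 1 0
      = Complex.exp (-(Complex.I * ((α / 2 : ℝ) : ℂ))) *
          (((Real.sin (b / 2) * Real.exp (d / 2) : ℝ)) : ℂ) := by
    simp [Matrix.mul_apply, Fin.sum_univ_two]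
    ring
  have e11 : ((!![Complex.exp (Complex.I * ((α / 2 : ℝ) : ℂ)), 0;
          0, Complex.exp (-(Complex.I * ((α / 2 : ℝ) : ℂ)))] : Matrix (Fin 2) (Fin 2) ℂ) *
        !![((Real.cos (b / 2) : ℝ) : ℂ), -((Real.sin (b / 2) : ℝ) : ℂ);
          ((Real.sin (b / 2) : ℝ) : ℂ), ((Real.cos (b / 2) : ℝ) : ℂ)] *
        !![((Real.exp (d / 2) : ℝ) : ℂ), 0; 0, ((Real.exp (-(d / 2)) : ℝ) : ℂ)]) 1 1
      = Complex.exp (-(Complex.I * ((α / 2 : ℝ) : ℂ))) *
          (((Real.cos (b / 2) * Real.exp (-(d / 2)) : ℝ)) : ℂ) := by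
    simp [Matrix.mul_apply, Fin.sum_univ_two]
    ring
  rw [e10, e11, norm_mul, norm_mul, hn, one_mul, one_mul, Complex.norm_real, Complex.norm_real,
    Real.norm_eq_abs, Real.norm_eq_abs, sq_abs, sq_abs]
  show _ = Real.cosh d - Real.cos b * Real.sinh d
  have hc : Real.cos b = 2 * Real.cos (b / 2) ^ 2 - 1 := by
    have := Real.cos_sq (b / 2)
    rw [show 2 * (b / 2) = b by ring] at this
    linarith
  have hs := Real.sin_sq_add_cos_sq (b / 2)
  have he1 : Real.exp (d / 2) ^ 2 = Real.exp d := by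
    rw [← Real.exp_nat_mul]
    congr 1
    push_cast
    ring
  have he2 : Real.exp (-(d / 2)) ^ 2 = Real.exp (-d) := by
    rw [← Real.exp_nat_mul]
    congr 1
    push_cast
    ring
  rw [mul_pow, mul_pow, he1, he2, Real.cosh_eq, Real.sinh_eq, hc]
  have hs' : Real.sin (b / 2) ^ 2 = 1 - Real.cos (b / 2) ^ 2 := by linarith
  rw [hs']
  ring

/-! ## 2. The `N`-integral of the sphere mean -/

/-- The Abel transform of the sphere mean of radius `d` (every `d`). -/
def abelMean698 (d : ℝ) (β : ℝ × ℝ → ℂ) : ℝ × ℝ → ℂ := fun u =>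
  ((2 * Real.pi : ℝ) : ℂ) * ∫ b in (0 : ℝ)..Real.pi,
    ((Real.sin b / sphP698 d b : ℝ) : ℂ) *
      β (u.1 - Real.log (sphP698 d b) / 2, u.2 + Real.log (sphP698 d b) / 2)

theorem continuous_upperGL_sa698 (c₁ c₂ : ℂˣ) : Continuous fun x : ℂ => upperGL c₁ c₂ x := by
  rw [Units.continuous_iff]
  constructor
  · show Continuous fun x : ℂ => (!![(c₁ : ℂ), x; 0, (c₂ : ℂ)] : Matrix (Fin 2) (Fin 2) ℂ)
    refine continuous_matrix fun i j => ?_
    fin_cases i <;> fin_cases j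
    · exact continuous_const
    · exact continuous_id
    · exact continuous_const
    · exact continuous_const
  · show Continuous fun x : ℂ =>
      (!![((c₁⁻¹ : ℂˣ) : ℂ), -(((c₁⁻¹ : ℂˣ) : ℂ) * x * ((c₂⁻¹ : ℂˣ) : ℂ));
        0, ((c₂⁻¹ : ℂˣ) : ℂ)] : Matrix (Fin 2) (Fin 2) ℂ)
    refine continuous_matrix fun i j => ?_
    fin_cases i <;> fin_cases j
    · exact continuous_const
    · show Continuous fun x : ℂ => -(((c₁⁻¹ : ℂˣ) : ℂ) * x * ((c₂⁻¹ : ℂˣ) : ℂ))
      fun_prop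
    · exact continuous_const
    · exact continuous_const

theorem upperGL_entry_sa698 (c₁ c₂ : ℂˣ) (x : ℂ) :
    ((upperGL c₁ c₂ x : GL (Fin 2) ℂ) : Matrix (Fin 2) (Fin 2) ℂ) 0 1 = x := by
  rw [upperGL_coe]
  simp

/-- **THE `N`-INTEGRAL OF THE SPHERE MEAN.** -/
theorem hasAbelN_sphMean698 {d : ℝ} {y : ℝ → ℝ → GL (Fin 2) ℂ} (hy : IsSphC445 d y)
    {Φ : GL (Fin 2) ℂ → ℂ} (hΦc : Continuous Φ) (hΦs : HasCompactSupport Φ)
    (hΦr : ∀ k g : GL (Fin 2) ℂ, IsUnitary2 k → Φ (g * k) = Φ g)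
    {β : ℝ × ℝ → ℂ} (hN : HasAbelN Φ β) :
    HasAbelN (sphMeanC445 y Φ) (abelMean698 d β) := by
  intro c₁ c₂
  show ∫ x : ℂ, (∫ α in (0 : ℝ)..(2 * Real.pi), ∫ b in (0 : ℝ)..Real.pi,
      Φ (upperGL c₁ c₂ x * y α b) * ((Real.sin b : ℝ) : ℂ)) = _
  have hycont := continuous_sph_sv698 hy
  -- the compact set
  have hS : IsCompact ((fun p : ℝ × ℝ => (y p.1 p.2)⁻¹) ''
      (uIcc (0 : ℝ) (2 * Real.pi) ×ˢ uIcc (0 : ℝ) Real.pi)) :=
    (isCompact_uIcc.prod isCompact_uIcc).image hycont.inv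
  have hC := hΦs.isCompact.mul hS
  have hent : Continuous fun g : GL (Fin 2) ℂ => (g : Matrix (Fin 2) (Fin 2) ℂ) 0 1 :=
    (Units.continuous_val).matrix_elem 0 1
  have hK := hC.image hent
  have hF : Continuous fun p : ℂ × ℝ × ℝ =>
      Φ (upperGL c₁ c₂ p.1 * y p.2.1 p.2.2) * ((Real.sin p.2.2 : ℝ) : ℂ) := by
    have h1 : Continuous fun p : ℂ × ℝ × ℝ => upperGL c₁ c₂ p.1 * y p.2.1 p.2.2 :=
      ((continuous_upperGL_sa698 c₁ c₂).comp continuous_fst).mul
        (hycont.comp continuous_snd)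
    have h2 : Continuous fun p : ℂ × ℝ × ℝ => ((Real.sin p.2.2 : ℝ) : ℂ) := by fun_prop
    exact (hΦc.comp h1).mul h2
  rw [swap2_sa698 (volume : Measure ℂ) 0 (2 * Real.pi) 0 Real.pi
    (F := fun x α b => Φ (upperGL c₁ c₂ x * y α b) * ((Real.sin b : ℝ) : ℂ)) hF hK
    (by
      intro x α hα b hb hx
      by_contra hne
      apply hx
      have hne' : Φ (upperGL c₁ c₂ x * y α b) ≠ 0 := fun h0 => hne (by rw [h0, zero_mul])
      refine ⟨upperGL c₁ c₂ x, ?_, upperGL_entry_sa698 c₁ c₂ x⟩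
      refine ⟨upperGL c₁ c₂ x * y α b, subset_tsupport _ hne', (y α b)⁻¹,
        ⟨(α, b), ⟨hα, hb⟩, rfl⟩, ?_⟩
      show upperGL c₁ c₂ x * y α b * (y α b)⁻¹ = upperGL c₁ c₂ x
      rw [mul_inv_cancel_right])]
  have hin : ∀ α b : ℝ, ∫ x : ℂ, Φ (upperGL c₁ c₂ x * y α b) * ((Real.sin b : ℝ) : ℂ)
      = ((‖(c₁ : ℂ)‖ * ‖(c₂ : ℂ)‖ : ℝ) : ℂ) *
        (((Real.sin b / sphP698 d b : ℝ) : ℂ) *
          β (Real.log ‖(c₁ : ℂ)‖ - Real.log (sphP698 d b) / 2,
            Real.log ‖(c₂ : ℂ)‖ + Real.log (sphP698 d b) / 2)) := by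
    intro α b
    rw [integral_mul_const, abelN_translate_sa698 hΦr hN (y α b) (det_sph_sa698 hy α b) c₁ c₂,
      row_sph_sa698 hy α b]
    push_cast
    ring
  simp only [hin]
  rw [intervalIntegral.integral_const, intervalIntegral.integral_const_mul, sub_zero]
  show _ = ((‖(c₁ : ℂ)‖ * ‖(c₂ : ℂ)‖ : ℝ) : ℂ) * (((2 * Real.pi : ℝ) : ℂ) *
    ∫ b in (0 : ℝ)..Real.pi, ((Real.sin b / sphP698 d b : ℝ) : ℂ) *
      β (Real.log ‖(c₁ : ℂ)‖ - Real.log (sphP698 d b) / 2,
        Real.log ‖(c₂ : ℂ)‖ + Real.log (sphP698 d b) / 2))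
  rw [Complex.real_smul]
  ring

/-! ## 3. The substitution `t = log P(d, b)` -/

theorem hasDerivAt_logP698 (d b : ℝ) :
    HasDerivAt (fun b : ℝ => Real.log (sphP698 d b))
      (Real.sinh d * Real.sin b / sphP698 d b) b := by
  have h1 : HasDerivAt (fun b : ℝ => sphP698 d b) (Real.sinh d * Real.sin b) b := by
    show HasDerivAt (fun b : ℝ => Real.cosh d - Real.cos b * Real.sinh d) _ b
    have h0 := ((Real.hasDerivAt_cos b).mul_const (Real.sinh d)).const_sub (Real.cosh d)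
    have e : Real.sinh d * Real.sin b = -(-Real.sin b * Real.sinh d) := by ring
    rw [e]
    exact h0
  exact h1.log (sphP_pos698 d b).ne'

theorem logP_zero698 (d : ℝ) : Real.log (sphP698 d 0) = -d := by
  show Real.log (Real.cosh d - Real.cos 0 * Real.sinh d) = -d
  rw [Real.cos_zero, one_mul, Real.cosh_sub_sinh, Real.log_exp]

theorem logP_pi698 (d : ℝ) : Real.log (sphP698 d Real.pi) = d := by
  show Real.log (Real.cosh d - Real.cos Real.pi * Real.sinh d) = d
  rw [Real.cos_pi, neg_one_mul, sub_neg_eq_add, Real.cosh_add_sinh, Real.log_exp]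

/-- The substitution `t = log P(d, b)`: `sinh d · ∫_0^π (sin b / P) G(log P) db = ∫_{-d}^d G`. -/
theorem subst_logP698 (d : ℝ) {G : ℝ → ℂ} (hG : Continuous G) :
    ((Real.sinh d : ℝ) : ℂ) * ∫ b in (0 : ℝ)..Real.pi,
        ((Real.sin b / sphP698 d b : ℝ) : ℂ) * G (Real.log (sphP698 d b))
      = ∫ t in (-d)..d, G t := by
  have hc : Continuous fun b : ℝ => Real.sinh d * Real.sin b / sphP698 d b :=
    (continuous_const.mul Real.continuous_sin).div (continuous_sphP698 d)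
      (fun b => (sphP_pos698 d b).ne')
  have h := intervalIntegral.integral_deriv_smul_comp (a := 0) (b := Real.pi)
    (f := fun b : ℝ => Real.log (sphP698 d b))
    (f' := fun b : ℝ => Real.sinh d * Real.sin b / sphP698 d b) (g := G)
    (fun x _ => hasDerivAt_logP698 d x) hc.continuousOn hG
  simp only [logP_zero698, logP_pi698] at h
  rw [← h, ← intervalIntegral.integral_const_mul]
  apply intervalIntegral.integral_congr
  intro b _
  show ((Real.sinh d : ℝ) : ℂ) * (((Real.sin b / sphP698 d b : ℝ) : ℂ) *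
      G (Real.log (sphP698 d b)))
    = (Real.sinh d * Real.sin b / sphP698 d b) • G (Real.log (sphP698 d b))
  rw [Complex.real_smul]
  push_cast
  ring

theorem continuous_seg_sa698 {β : ℝ × ℝ → ℂ} (hβ : Continuous β) (u : ℝ × ℝ) :
    Continuous fun t : ℝ => β (u.1 - t / 2, u.2 + t / 2) :=
  hβ.comp (by fun_prop)

/-- The explicit form for `d ≠ 0`. -/
theorem abelMean_eq698 {d : ℝ} (hd : d ≠ 0) {β : ℝ × ℝ → ℂ} (hβ : Continuous β) (u : ℝ × ℝ) :
    abelMean698 d β u = ((2 * Real.pi / Real.sinh d : ℝ) : ℂ) *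
      ∫ t in (-d)..d, β (u.1 - t / 2, u.2 + t / 2) := by
  have hs : Real.sinh d ≠ 0 := fun h => hd (Real.sinh_eq_zero.1 h)
  have hsc : ((Real.sinh d : ℝ) : ℂ) ≠ 0 := Complex.ofReal_ne_zero.2 hs
  have h := subst_logP698 d (continuous_seg_sa698 hβ u)
  show ((2 * Real.pi : ℝ) : ℂ) * (∫ b in (0 : ℝ)..Real.pi,
    ((Real.sin b / sphP698 d b : ℝ) : ℂ) *
      β (u.1 - Real.log (sphP698 d b) / 2, u.2 + Real.log (sphP698 d b) / 2)) = _
  rw [← h]
  generalize (∫ b in (0 : ℝ)..Real.pi, ((Real.sin b / sphP698 d b : ℝ) : ℂ) *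
    β (u.1 - Real.log (sphP698 d b) / 2, u.2 + Real.log (sphP698 d b) / 2)) = I
  rw [← mul_assoc, ← Complex.ofReal_mul, div_mul_cancel₀ _ hs]

/-- The explicit form for `d ≠ 0`, in the variable `a = -t/2`. -/
theorem abelMean_eq_half698 {d : ℝ} (hd : d ≠ 0) {β : ℝ × ℝ → ℂ} (hβ : Continuous β)
    (u : ℝ × ℝ) :
    abelMean698 d β u = ((4 * Real.pi / Real.sinh d : ℝ) : ℂ) *
      ∫ a in (-(d / 2))..(d / 2), β (u.1 + a, u.2 - a) := by
  rw [abelMean_eq698 hd hβ u]
  have h := intervalIntegral.smul_integral_comp_mul_left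
    (f := fun t : ℝ => β (u.1 - t / 2, u.2 + t / 2)) (a := d / 2) (b := -(d / 2)) (-2 : ℝ)
  have e1 : (-2 : ℝ) * (d / 2) = -d := by ring
  have e2 : (-2 : ℝ) * (-(d / 2)) = d := by ring
  rw [e1, e2] at h
  rw [← h, intervalIntegral.integral_symm (-(d / 2)) (d / 2)]
  have e3 : ∀ a : ℝ, β (u.1 - (-2 * a) / 2, u.2 + (-2 * a) / 2) = β (u.1 + a, u.2 - a) := by
    intro a
    congr 2 <;> ring
  simp only [e3]
  rw [Complex.real_smul]
  push_cast
  ring

/-- The value for `d = 0`. -/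
theorem abelMean_zero698 (β : ℝ × ℝ → ℂ) (u : ℝ × ℝ) :
    abelMean698 0 β u = ((4 * Real.pi : ℝ) : ℂ) * β u := by
  show ((2 * Real.pi : ℝ) : ℂ) * (∫ b in (0 : ℝ)..Real.pi,
    ((Real.sin b / sphP698 0 b : ℝ) : ℂ) *
      β (u.1 - Real.log (sphP698 0 b) / 2, u.2 + Real.log (sphP698 0 b) / 2)) = _
  simp only [sphP_zero698, Real.log_one, zero_div, sub_zero, add_zero, div_one]
  rw [intervalIntegral.integral_mul_const, intervalIntegral.integral_ofReal, integral_sin,
    Real.cos_zero, Real.cos_pi]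
  push_cast
  ring

/-! ## 4. The Abel transform of the sphere mean is a symmetric bump -/

/-- **Parametric integrals of smooth functions** (Mathlib only; the proof of helper872,
`H872.contDiff_paramIntegral872`, under a new name).  If `Φ` is smooth on `E × P`, `ν` is a
finite measure and `σ` is a measurable map with (almost everywhere) bounded values, then
`p ↦ ∫ Φ (σ y, p) dν(y)` is smooth. -/
theorem contDiff_paramIntegral_sa698 {Y : Type*} [MeasurableSpace Y] (ν : Measure Y)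
    [IsFiniteMeasure ν]
    {E P : Type*} [NormedAddCommGroup E] [NormedSpace ℝ E] [FiniteDimensional ℝ E]
    [MeasurableSpace E] [BorelSpace E]
    [NormedAddCommGroup P] [NormedSpace ℝ P]
    (Φ : E × P → ℂ) (hΦ : ContDiff ℝ ∞ Φ) (σ : Y → E) (hσ : Measurable σ) (R : ℝ)
    (hR : ∀ᵐ y ∂ν, ‖σ y‖ ≤ R) :
    ContDiff ℝ ∞ (fun p : P => ∫ y, Φ (σ y, p) ∂ν) := by
  classical
  set R' : ℝ := max R 0 + 1 with hR'def
  have hR'pos : 0 < R' := by positivity
  have hRR' : R ≤ R' := by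
    have := le_max_left R 0
    linarith
  let χ : ContDiffBump (0 : E) := ⟨R', R' + 1, hR'pos, by linarith⟩
  let lam : Measure E := Measure.map σ ν
  have hlam : IsFiniteMeasure lam := Measure.isFiniteMeasure_map ν σ
  let g : P → E → ℂ := fun p x => ((χ (-x) : ℝ) : ℂ) * Φ (-x, p)
  let f : E → ℂ := fun _ => 1
  let L : ℂ →L[ℝ] ℂ →L[ℝ] ℂ := ContinuousLinearMap.mul ℝ ℂ
  have hgs : ∀ p, ∀ x, p ∈ (univ : Set P) → x ∉ Metric.closedBall (0 : E) (R' + 1) →
      g p x = 0 := by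
    intro p x _ hx
    have h1 : χ (-x) = 0 := by
      apply χ.zero_of_le_dist
      rw [Metric.mem_closedBall, not_le, dist_zero_right] at hx
      rw [dist_zero_right, norm_neg]
      exact hx.le
    simp only [g, h1, Complex.ofReal_zero, zero_mul]
  have hf : LocallyIntegrable f lam := (integrable_const (1 : ℂ)).locallyIntegrable
  have hχ : ContDiff ℝ ∞ (fun x : E => χ x) := χ.contDiff
  have hg : ContDiffOn ℝ ∞ (↿g) ((univ : Set P) ×ˢ (univ : Set E)) := by
    apply ContDiff.contDiffOn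
    have h1 : ContDiff ℝ ∞ (fun q : P × E => ((χ (-q.2) : ℝ) : ℂ)) :=
      Complex.ofRealCLM.contDiff.comp (hχ.comp contDiff_snd.neg)
    have h2 : ContDiff ℝ ∞ (fun q : P × E => Φ (-q.2, q.1)) :=
      hΦ.comp ((contDiff_snd.neg).prodMk contDiff_fst)
    exact h1.mul h2
  have key := contDiffOn_convolution_right_with_param (μ := lam) (f := f) (n := ⊤) L
    (g := g) (s := univ) (k := Metric.closedBall (0 : E) (R' + 1)) isOpen_univ
    (isCompact_closedBall _ _) hgs hf hg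
  rw [univ_prod_univ, contDiffOn_univ] at key
  have h2 : ContDiff ℝ ∞ (fun p : P => (p, (0 : E))) := contDiff_id.prodMk contDiff_const
  have h3 := key.comp h2
  have e : (fun p : P => ∫ y, Φ (σ y, p) ∂ν)
      = (fun q : P × E => (f ⋆[L, lam] g q.1) q.2) ∘ fun p : P => (p, (0 : E)) := by
    funext p
    simp only [Function.comp_apply]
    rw [convolution_def]
    have hfun : (fun t : E => L (f t) (g p (0 - t)))
        = fun t : E => ((χ t : ℝ) : ℂ) * Φ (t, p) := by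
      funext t
      simp [L, f, g]
    rw [hfun]
    have hm : AEStronglyMeasurable (fun t : E => ((χ t : ℝ) : ℂ) * Φ (t, p))
        (Measure.map σ ν) := by
      apply Continuous.aestronglyMeasurable
      have c1 : Continuous (fun t : E => ((χ t : ℝ) : ℂ)) :=
        Complex.continuous_ofReal.comp hχ.continuous
      have c2 : Continuous (fun t : E => Φ (t, p)) :=
        hΦ.continuous.comp (by fun_prop)
      exact c1.mul c2
    rw [integral_map hσ.aemeasurable hm]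
    refine integral_congr_ae ?_
    filter_upwards [hR] with y hy
    have h1 : χ (σ y) = 1 := by
      apply χ.one_of_mem_closedBall
      rw [Metric.mem_closedBall, dist_zero_right]
      exact hy.trans hRR'
    simp [h1]
  rw [e]
  exact h3

/-- Parametric interval integrals of smooth functions. -/
theorem contDiff_intervalParam_sa698 {P : Type*} [NormedAddCommGroup P] [NormedSpace ℝ P]
    (Φ : ℝ × P → ℂ) (hΦ : ContDiff ℝ ∞ Φ) (a b : ℝ) :
    ContDiff ℝ ∞ (fun p : P => ∫ t in a..b, Φ (t, p)) := by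
  have h : ∀ a b : ℝ, ContDiff ℝ ∞ (fun p : P => ∫ t in Ioc a b, Φ (t, p)) := by
    intro a b
    haveI : IsFiniteMeasure ((volume : Measure ℝ).restrict (Ioc a b)) :=
      ⟨by rw [Measure.restrict_apply_univ]; exact measure_Ioc_lt_top⟩
    refine contDiff_paramIntegral_sa698 ((volume : Measure ℝ).restrict (Ioc a b)) Φ hΦ id
      measurable_id (max |a| |b|) ?_
    refine ae_restrict_of_forall_mem measurableSet_Ioc fun y hy => ?_
    show ‖y‖ ≤ max |a| |b|
    rw [Real.norm_eq_abs, abs_le]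
    have h1 := le_max_left |a| |b|
    have h2 := le_max_right |a| |b|
    have h3 := neg_abs_le a
    have h4 := le_abs_self b
    exact ⟨by linarith [hy.1], by linarith [hy.2]⟩
  show ContDiff ℝ ∞ (fun p : P => (∫ t in Ioc a b, Φ (t, p)) - ∫ t in Ioc b a, Φ (t, p))
  exact (h a b).sub (h b a)

/-- The average of the translates of a symmetric bump along a symmetric segment of the
antidiagonal is a symmetric bump. -/
theorem isSymBump_seg_sa698 (d : ℝ) (c : ℂ) {β : ℝ × ℝ → ℂ} (hβ : IsSymBump β) :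
    IsSymBump (fun u : ℝ × ℝ => c * ∫ t in (-d)..d, β (u.1 - t / 2, u.2 + t / 2)) := by
  obtain ⟨hsm, hcs, hsym⟩ := hβ
  refine ⟨?_, ?_, ?_⟩
  · have hΦ : ContDiff ℝ ∞
        (fun q : ℝ × (ℝ × ℝ) => β (q.2.1 - q.1 / 2, q.2.2 + q.1 / 2)) :=
      hsm.comp (by fun_prop)
    exact contDiff_const.mul (contDiff_intervalParam_sa698 _ hΦ (-d) d)
  · obtain ⟨R, hR⟩ := hcs.isCompact.isBounded.subset_closedBall (0 : ℝ × ℝ)
    refine HasCompactSupport.intro (isCompact_closedBall (0 : ℝ × ℝ) (R + |d|)) ?_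
    intro u hu
    have hu' : R + |d| < ‖u‖ := by
      rwa [Metric.mem_closedBall, dist_zero_right, not_le] at hu
    have hz : ∀ t ∈ Set.uIoc (-d) d, β (u.1 - t / 2, u.2 + t / 2) = 0 := by
      intro t ht
      have ht' : |t| ≤ |d| := by
        rcases Set.mem_uIoc.1 ht with h | h
        · exact (abs_le.2 ⟨by linarith [h.1], h.2⟩).trans (le_abs_self d)
        · exact (abs_le.2 ⟨by linarith [h.1], h.2⟩).trans (neg_le_abs d)
      by_contra hne
      have hm := hR (subset_tsupport _ hne)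
      rw [Metric.mem_closedBall, dist_zero_right] at hm
      have e : u = (u.1 - t / 2, u.2 + t / 2) + (t / 2, -(t / 2)) := by
        ext <;> simp
      have h1 : ‖u‖ ≤ ‖((u.1 - t / 2, u.2 + t / 2) : ℝ × ℝ)‖ + |t| / 2 := by
        calc ‖u‖ = ‖((u.1 - t / 2, u.2 + t / 2) : ℝ × ℝ) + (t / 2, -(t / 2))‖ :=
              congrArg norm e
          _ ≤ ‖((u.1 - t / 2, u.2 + t / 2) : ℝ × ℝ)‖ + ‖((t / 2, -(t / 2)) : ℝ × ℝ)‖ :=
              norm_add_le _ _
          _ = ‖((u.1 - t / 2, u.2 + t / 2) : ℝ × ℝ)‖ + |t| / 2 := by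
              congr 1
              rw [Prod.norm_mk, norm_neg, max_self, Real.norm_eq_abs, abs_div, abs_two]
      have hd0 := abs_nonneg d
      have ht0 := abs_nonneg t
      linarith
    show c * ∫ t in (-d)..d, β (u.1 - t / 2, u.2 + t / 2) = 0
    rw [intervalIntegral.integral_zero_ae (by
      filter_upwards with t ht
      exact hz t ht), mul_zero]
  · intro x y
    show c * ∫ t in (-d)..d, β (x - t / 2, y + t / 2)
      = c * ∫ t in (-d)..d, β (y - t / 2, x + t / 2)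
    congr 1
    have h := intervalIntegral.integral_comp_neg (a := -d) (b := d)
      (fun t : ℝ => β (x - t / 2, y + t / 2))
    rw [neg_neg] at h
    rw [← h]
    apply intervalIntegral.integral_congr
    intro t _
    show β (x - (-t) / 2, y + (-t) / 2) = β (y - t / 2, x + t / 2)
    rw [hsym (y - t / 2) (x + t / 2)]
    congr 2 <;> ring

/-- **The Abel transform of the sphere mean of a symmetric bump is a symmetric bump.** -/
theorem isSymBump_abelMean698 (d : ℝ) {β : ℝ × ℝ → ℂ} (hβ : IsSymBump β) :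
    IsSymBump (abelMean698 d β) := by
  by_cases hd : d = 0
  · subst hd
    have e : abelMean698 0 β = fun u => ((4 * Real.pi : ℝ) : ℂ) * β u :=
      funext (abelMean_zero698 β)
    rw [e]
    refine ⟨contDiff_const.mul hβ.1, ?_, fun x y => ?_⟩
    · exact HasCompactSupport.mul_left (f := fun _ => ((4 * Real.pi : ℝ) : ℂ)) hβ.2.1
    · show ((4 * Real.pi : ℝ) : ℂ) * β (x, y) = ((4 * Real.pi : ℝ) : ℂ) * β (y, x)
      rw [hβ.2.2 x y]
  · have e : abelMean698 d β = fun u : ℝ × ℝ => ((2 * Real.pi / Real.sinh d : ℝ) : ℂ) *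
        ∫ t in (-d)..d, β (u.1 - t / 2, u.2 + t / 2) :=
      funext (abelMean_eq698 hd hβ.1.continuous)
    rw [e]
    exact isSymBump_seg_sa698 d _ hβ

/-- **THE ARCHIMEDEAN STEP UPSTAIRS**: the sphere mean of a continuous right
`U(2)`-invariant function of compact support whose `N`-integral is the symmetric bump `β` has
the `N`-integral `abelMean698 d β`, a symmetric bump. -/
theorem sphAbelUp698 {d : ℝ} {y : ℝ → ℝ → GL (Fin 2) ℂ} (hy : IsSphC445 d y)
    {Φ : GL (Fin 2) ℂ → ℂ} (hΦc : Continuous Φ) (hΦs : HasCompactSupport Φ)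
    (hΦr : ∀ k g : GL (Fin 2) ℂ, IsUnitary2 k → Φ (g * k) = Φ g)
    {β : ℝ × ℝ → ℂ} (hβ : IsSymBump β) (hN : HasAbelN Φ β) :
    IsSymBump (abelMean698 d β) ∧ HasAbelN (sphMeanC445 y Φ) (abelMean698 d β) :=
  ⟨isSymBump_abelMean698 d hβ, hasAbelN_sphMean698 hy hΦc hΦs hΦr hN⟩

end Fermat.Agent.LT.T7.H698

end
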