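import Mathlib
import Fermat.Agent.LT.T7.H698.SphAbel
import Fermat.Agent.LT.T7.H922.SphMean
import Fermat.Agent.LT.T6.H8.Unimod
import Fermat.Agent.LT.T3.H736.ASSmooth

/-!
# Row LT, tower T7 (quadratic step `M_{w,d}` ON THE DATA, upstairs), helper698: THE LOCAL FIELDS
# OF THE SPHERE MEAN on `GL₂(ℂ)`

OFF-MAIN.  Complete proofs, nothing assumed.  For the node `BQ87.StepMDatQC87` (helper87,
`T7/H87/BaseAQ801Spec.lean`; registry row 3188): the fields `test_up`, `smooth_up`, `symβ'`,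
`abel_up`, `acts_up` of `BQ87.IsDatQ87` for `Φ' = sphMeanC445 y Φ`, `β'' = abelMean698 d β'`.

    sphDatUp698 : 0 < d → IsSphC445 d y → IsCplxTest Φ → IsCplxSmooth Φ → IsSymBump β →
      HasAbelN Φ β → ActsBy μc Φ (κc * ∫ β) →
      IsCplxTest (sphMeanC445 y Φ) ∧ IsCplxSmooth (sphMeanC445 y Φ) ∧
      IsSymBump (abelMean698 d β) ∧ HasAbelN (sphMeanC445 y Φ) (abelMean698 d β) ∧
      ActsBy μc (sphMeanC445 y Φ) (κc * ∫ abelMean698 d β) ∧
      ∫ abelMean698 d β = 4π (d / sinh d) ∫ β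

* `integral_abelMean698`: the total mass (Fubini + translation invariance);
* `actsBy_sphMean698`: `R(M Φ) Ψ = 4π (d / sinh d) C Ψ` on the functions of parameter `0` if
  `R(Φ) Ψ = C Ψ` (right invariance of the Haar measure of `GL₂(ℂ)`, `H8.rightInv_GL2C8`; the
  Weyl element; Fubini; the mean value property of `Ψ`);
* `isCplxSmooth_sphMean698`: parametric integrals of the smooth family with `n + 2` parameters;
* continuity, compact support, bi-invariance: `H922` (helper922, byte-identical copy).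
-/

set_option autoImplicit false
set_option linter.style.haveILetI false

open MeasureTheory Matrix Set Function
open scoped ComplexConjugate ContDiff

noncomputable section

namespace Fermat.Agent.LT.T7.H698

open Fermat.Agent.LT.H556 Fermat.Agent.LT.H556.A0 Fermat.Agent.LT.T7
open Fermat.Agent.LT.T7.H305 Fermat.Agent.LT.T7.H445 Fermat.Agent.LT
open Fermat.Agent.LT.T3.AS

/-! ## 1. The total mass -/

/-- The total mass of the Abel transform of the sphere mean. -/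
theorem integral_abelMean698 {d : ℝ} (hd : d ≠ 0) {β : ℝ × ℝ → ℂ} (hβ : Continuous β)
    (hβs : HasCompactSupport β) :
    ∫ u : ℝ × ℝ, abelMean698 d β u
      = ((4 * Real.pi * (d / Real.sinh d) : ℝ) : ℂ) * ∫ u : ℝ × ℝ, β u := by
  have e : abelMean698 d β = fun u : ℝ × ℝ => ((2 * Real.pi / Real.sinh d : ℝ) : ℂ) *
      ∫ t in (-d)..d, β (u.1 - t / 2, u.2 + t / 2) := funext (abelMean_eq698 hd hβ)
  rw [e, integral_const_mul]
  obtain ⟨R, hR⟩ := hβs.isCompact.isBounded.subset_closedBall (0 : ℝ × ℝ)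
  have hF : Continuous (uncurry fun (u : ℝ × ℝ) (t : ℝ) => β (u.1 - t / 2, u.2 + t / 2)) :=
    hβ.comp (by fun_prop)
  rw [swap1_sa698 (volume : Measure (ℝ × ℝ)) (-d) d hF
    (isCompact_closedBall (0 : ℝ × ℝ) (R + |d|)) (by
      intro u t ht hu
      have hu' : R + |d| < ‖u‖ := by
        rwa [Metric.mem_closedBall, dist_zero_right, not_le] at hu
      have ht' : |t| ≤ |d| := by
        rw [Set.mem_uIcc] at ht
        rcases ht with h | h
        · exact (abs_le.2 ⟨h.1, h.2⟩).trans (le_abs_self d)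
        · exact (abs_le.2 ⟨by linarith [h.1], h.2⟩).trans (neg_le_abs d)
      by_contra hne
      have hm := hR (subset_tsupport _ hne)
      rw [Metric.mem_closedBall, dist_zero_right] at hm
      have e : u = (u.1 - t / 2, u.2 + t / 2) + (t / 2, -(t / 2)) := by
        ext <;> simp
      have h1 : ‖u‖ ≤ ‖((u.1 - t / 2, u.2 + t / 2) : ℝ × ℝ)‖ + |t| / 2 := by
        calc ‖u‖ = ‖((u.1 - t / 2, u.2 + t / 2) : ℝ × ℝ) + (t / 2, -(t / 2))‖ :=
              congrArg norm e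
          _ ≤ ‖((u.1 - t / 2, u.2 + t / 2) : ℝ × ℝ)‖ + ‖((t / 2, -(t / 2)) : ℝ × ℝ)‖ :=
              norm_add_le _ _
          _ = ‖((u.1 - t / 2, u.2 + t / 2) : ℝ × ℝ)‖ + |t| / 2 := by
              congr 1
              rw [Prod.norm_mk, norm_neg, max_self, Real.norm_eq_abs, abs_div, abs_two]
      have hd0 := abs_nonneg d
      have ht0 := abs_nonneg t
      linarith)]
  have htr : ∀ t : ℝ, ∫ u : ℝ × ℝ, β (u.1 - t / 2, u.2 + t / 2) = ∫ u : ℝ × ℝ, β u := by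
    intro t
    have h := integral_add_right_eq_self (μ := (volume : Measure (ℝ × ℝ))) β
      ((-(t / 2), t / 2) : ℝ × ℝ)
    rw [← h]
    congr 1
  simp only [htr]
  rw [intervalIntegral.integral_const, Complex.real_smul]
  have hs : Real.sinh d ≠ 0 := fun h => hd (Real.sinh_eq_zero.1 h)
  have hsc : ((Real.sinh d : ℝ) : ℂ) ≠ 0 := Complex.ofReal_ne_zero.2 hs
  generalize (∫ u : ℝ × ℝ, β u) = I
  rw [Complex.ofReal_div, Complex.ofReal_mul, Complex.ofReal_mul, Complex.ofReal_div,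
    Complex.ofReal_sub, Complex.ofReal_neg, Complex.ofReal_mul]
  field_simp
  push_cast
  ring

/-! ## 2. The operator -/

theorem isUnitary2_mul_sa698 {k₁ k₂ : GL (Fin 2) ℂ} (h₁ : IsUnitary2 k₁) (h₂ : IsUnitary2 k₂) :
    IsUnitary2 (k₁ * k₂) := by
  show ((k₁ * k₂ : GL (Fin 2) ℂ) : Matrix (Fin 2) (Fin 2) ℂ) *
    ((k₁ * k₂ : GL (Fin 2) ℂ) : Matrix (Fin 2) (Fin 2) ℂ).conjTranspose = 1
  have h₁' : (k₁ : Matrix (Fin 2) (Fin 2) ℂ) * (k₁ : Matrix (Fin 2) (Fin 2) ℂ).conjTranspose = 1 :=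
    h₁
  have h₂' : (k₂ : Matrix (Fin 2) (Fin 2) ℂ) * (k₂ : Matrix (Fin 2) (Fin 2) ℂ).conjTranspose = 1 :=
    h₂
  rw [Units.val_mul, Matrix.conjTranspose_mul, Matrix.mul_assoc,
    ← Matrix.mul_assoc (k₂ : Matrix (Fin 2) (Fin 2) ℂ), h₂', Matrix.one_mul, h₁']

theorem isUnitary2_inv_sa698 {k : GL (Fin 2) ℂ} (h : IsUnitary2 k) : IsUnitary2 k⁻¹ := by
  have h' : (k : Matrix (Fin 2) (Fin 2) ℂ) * (k : Matrix (Fin 2) (Fin 2) ℂ).conjTranspose = 1 := h
  have e : ((k⁻¹ : GL (Fin 2) ℂ) : Matrix (Fin 2) (Fin 2) ℂ)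
      = (k : Matrix (Fin 2) (Fin 2) ℂ).conjTranspose := by
    have h1 : ((k⁻¹ : GL (Fin 2) ℂ) : Matrix (Fin 2) (Fin 2) ℂ) * (k : Matrix (Fin 2) (Fin 2) ℂ)
        = 1 := by
      rw [← Units.val_mul, inv_mul_cancel, Units.val_one]
    calc ((k⁻¹ : GL (Fin 2) ℂ) : Matrix (Fin 2) (Fin 2) ℂ)
        = ((k⁻¹ : GL (Fin 2) ℂ) : Matrix (Fin 2) (Fin 2) ℂ) *
            ((k : Matrix (Fin 2) (Fin 2) ℂ) * (k : Matrix (Fin 2) (Fin 2) ℂ).conjTranspose) := by
          rw [h', Matrix.mul_one]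
      _ = (k : Matrix (Fin 2) (Fin 2) ℂ).conjTranspose := by
          rw [← Matrix.mul_assoc, h1, Matrix.one_mul]
  show ((k⁻¹ : GL (Fin 2) ℂ) : Matrix (Fin 2) (Fin 2) ℂ) *
    ((k⁻¹ : GL (Fin 2) ℂ) : Matrix (Fin 2) (Fin 2) ℂ).conjTranspose = 1
  rw [e, Matrix.conjTranspose_conjTranspose]
  exact mul_eq_one_comm.1 h'

/-- The Weyl element. -/
def weyl_sa698 : GL (Fin 2) ℂ :=
  ⟨!![0, 1; 1, 0], !![0, 1; 1, 0],
    by ext i j; fin_cases i <;> fin_cases j <;> simp [Matrix.mul_apply, Fin.sum_univ_two],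
    by ext i j; fin_cases i <;> fin_cases j <;> simp [Matrix.mul_apply, Fin.sum_univ_two]⟩

theorem weyl_unitary_sa698 : IsUnitary2 weyl_sa698 := by
  show (!![0, 1; 1, 0] : Matrix (Fin 2) (Fin 2) ℂ) *
    (!![0, 1; 1, 0] : Matrix (Fin 2) (Fin 2) ℂ).conjTranspose = 1
  ext i j
  fin_cases i <;> fin_cases j <;>
    simp [Matrix.mul_apply, Fin.sum_univ_two, Matrix.conjTranspose_apply]

theorem torus_weyl_sa698 (d : ℝ) : tGL_sv698 d * weyl_sa698 * tGL_sv698 d = weyl_sa698 := by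
  apply Units.ext
  show (!![((Real.exp (d / 2) : ℝ) : ℂ), 0; 0, ((Real.exp (-(d / 2)) : ℝ) : ℂ)] :
      Matrix (Fin 2) (Fin 2) ℂ) * !![0, 1; 1, 0] *
      !![((Real.exp (d / 2) : ℝ) : ℂ), 0; 0, ((Real.exp (-(d / 2)) : ℝ) : ℂ)] = !![0, 1; 1, 0]
  have h : ((Real.exp (d / 2) : ℝ) : ℂ) * ((Real.exp (-(d / 2)) : ℝ) : ℂ) = 1 := by
    rw [← Complex.ofReal_mul, ← Real.exp_add, add_neg_cancel, Real.exp_zero, Complex.ofReal_one]
  generalize ((Real.exp (d / 2) : ℝ) : ℂ) = p at h ⊢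
  generalize ((Real.exp (-(d / 2)) : ℝ) : ℂ) = q at h ⊢
  have h' : q * p = 1 := by rw [mul_comm]; exact h
  ext i j
  fin_cases i <;> fin_cases j <;> simp [Matrix.mul_apply, Fin.sum_univ_two, h, h']

theorem weyl_torus_inv_sa698 (d : ℝ) :
    weyl_sa698 * (tGL_sv698 d)⁻¹ = tGL_sv698 d * weyl_sa698 := by
  have h := torus_weyl_sa698 d
  calc weyl_sa698 * (tGL_sv698 d)⁻¹
      = tGL_sv698 d * weyl_sa698 * tGL_sv698 d * (tGL_sv698 d)⁻¹ := by rw [h]
    _ = tGL_sv698 d * weyl_sa698 := by rw [mul_inv_cancel_right]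

theorem sinC_total_sa698 :
    (∫ _α in (0 : ℝ)..(2 * Real.pi), ∫ b in (0 : ℝ)..Real.pi, ((Real.sin b : ℝ) : ℂ))
      = ((4 * Real.pi : ℝ) : ℂ) := by
  rw [intervalIntegral.integral_const, intervalIntegral.integral_ofReal, integral_sin,
    Real.cos_zero, Real.cos_pi, Complex.real_smul]
  push_cast
  ring

section Acts

variable [MeasurableSpace (GL (Fin 2) ℂ)] [BorelSpace (GL (Fin 2) ℂ)]

/-- The key identity: the translate of `Φ` by `y(α, b)` against `Ψ` is the translate of `Ψ`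
against `Φ`. -/
theorem acts_key_sa698 (μc : Measure (GL (Fin 2) ℂ)) [μc.IsHaarMeasure]
    {d : ℝ} {y : ℝ → ℝ → GL (Fin 2) ℂ} (hy : IsSphC445 d y)
    {Φ Ψ : GL (Fin 2) ℂ → ℂ}
    (hΦr : ∀ k g : GL (Fin 2) ℂ, IsUnitary2 k → Φ (g * k) = Φ g)
    (hΨr : ∀ k g : GL (Fin 2) ℂ, IsUnitary2 k → Ψ (g * k) = Ψ g)
    (g : GL (Fin 2) ℂ) (α b : ℝ) (s : ℂ) :
    ∫ h, Ψ (g * h) * (Φ (h * y α b) * s) ∂μc = ∫ h, Ψ (g * h * y α b) * Φ h * s ∂μc := by
  have := T6.H8.locallyCompactSpace_GL2C8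
  have := T6.H8.secondCountableTopology_GL2C8
  have hri : μc.IsMulRightInvariant := ⟨(T6.H8.rightInv_GL2C8 μc).1⟩
  have hY := sph_eq_sv698 hy α b
  have hk : IsUnitary2 (kGL_sv698 α b) := kGL_unitary_sv698 α b
  -- step A
  have hA : ∫ h, Ψ (g * h) * (Φ (h * y α b) * s) ∂μc
      = ∫ h, Ψ (g * h * (tGL_sv698 d)⁻¹) * (Φ h * s) ∂μc := by
    have h1 := integral_mul_right_eq_self (μ := μc)
      (fun h : GL (Fin 2) ℂ => Ψ (g * h * (tGL_sv698 d)⁻¹) * (Φ h * s)) (y α b)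
    rw [← h1]
    congr 1
    funext h
    have e : g * (h * y α b) * (tGL_sv698 d)⁻¹ = g * h * kGL_sv698 α b := by
      rw [hY]
      group
    rw [e, hΨr _ _ hk]
  -- step B
  have hB : ∫ h, Ψ (g * h * (tGL_sv698 d)⁻¹) * (Φ h * s) ∂μc
      = ∫ h, Ψ (g * h * y α b) * Φ h * s ∂μc := by
    have h1 := integral_mul_right_eq_self (μ := μc)
      (fun h : GL (Fin 2) ℂ => Ψ (g * h * (tGL_sv698 d)⁻¹) * (Φ h * s))
      (kGL_sv698 α b * weyl_sa698)
    rw [← h1]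
    congr 1
    funext h
    have e : g * (h * (kGL_sv698 α b * weyl_sa698)) * (tGL_sv698 d)⁻¹
        = g * h * y α b * weyl_sa698 := by
      rw [hY]
      calc g * (h * (kGL_sv698 α b * weyl_sa698)) * (tGL_sv698 d)⁻¹
          = g * h * kGL_sv698 α b * (weyl_sa698 * (tGL_sv698 d)⁻¹) := by group
        _ = g * h * kGL_sv698 α b * (tGL_sv698 d * weyl_sa698) := by
            rw [weyl_torus_inv_sa698]
        _ = g * h * (kGL_sv698 α b * tGL_sv698 d) * weyl_sa698 := by group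
    rw [e, hΨr _ _ weyl_unitary_sa698,
      hΦr _ _ (isUnitary2_mul_sa698 hk weyl_unitary_sa698), mul_assoc g h (y α b)]
    ring
  rw [hA, hB]

/-- **THE OPERATOR OF THE SPHERE MEAN** on the functions of parameter `0`. -/
theorem actsBy_sphMean698 (μc : Measure (GL (Fin 2) ℂ)) [μc.IsHaarMeasure]
    {d : ℝ} (hd : 0 < d) {y : ℝ → ℝ → GL (Fin 2) ℂ} (hy : IsSphC445 d y)
    {Φ : GL (Fin 2) ℂ → ℂ} (hΦc : Continuous Φ) (hΦs : HasCompactSupport Φ)
    (hΦr : ∀ k g : GL (Fin 2) ℂ, IsUnitary2 k → Φ (g * k) = Φ g) {C : ℂ}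
    (hA : ActsBy μc Φ C) :
    ActsBy μc (sphMeanC445 y Φ) (((4 * Real.pi * (d / Real.sinh d) : ℝ) : ℂ) * C) := by
  intro Ψ hΨ g
  have := T6.H8.locallyCompactSpace_GL2C8
  have := T6.H8.secondCountableTopology_GL2C8
  have hycont := continuous_sph_sv698 hy
  show ∫ h, Ψ (g * h) * (∫ α in (0 : ℝ)..(2 * Real.pi), ∫ b in (0 : ℝ)..Real.pi,
      Φ (h * y α b) * ((Real.sin b : ℝ) : ℂ)) ∂μc = _
  have e1 : ∀ h : GL (Fin 2) ℂ, Ψ (g * h) * (∫ α in (0 : ℝ)..(2 * Real.pi),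
      ∫ b in (0 : ℝ)..Real.pi, Φ (h * y α b) * ((Real.sin b : ℝ) : ℂ))
      = ∫ α in (0 : ℝ)..(2 * Real.pi), ∫ b in (0 : ℝ)..Real.pi,
        Ψ (g * h) * (Φ (h * y α b) * ((Real.sin b : ℝ) : ℂ)) := by
    intro h
    rw [← intervalIntegral.integral_const_mul]
    congr 1
    funext α
    rw [← intervalIntegral.integral_const_mul]
  simp only [e1]
  -- first swap
  have hS : IsCompact ((fun p : ℝ × ℝ => (y p.1 p.2)⁻¹) ''
      (uIcc (0 : ℝ) (2 * Real.pi) ×ˢ uIcc (0 : ℝ) Real.pi)) :=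
    (isCompact_uIcc.prod isCompact_uIcc).image hycont.inv
  have hK := hΦs.isCompact.mul hS
  have hF1 : Continuous fun p : GL (Fin 2) ℂ × ℝ × ℝ =>
      Ψ (g * p.1) * (Φ (p.1 * y p.2.1 p.2.2) * ((Real.sin p.2.2 : ℝ) : ℂ)) := by
    have h1 : Continuous fun p : GL (Fin 2) ℂ × ℝ × ℝ => p.1 * y p.2.1 p.2.2 :=
      continuous_fst.mul (hycont.comp continuous_snd)
    have h2 : Continuous fun p : GL (Fin 2) ℂ × ℝ × ℝ => ((Real.sin p.2.2 : ℝ) : ℂ) := by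
      fun_prop
    have h3 : Continuous fun p : GL (Fin 2) ℂ × ℝ × ℝ => Ψ (g * p.1) :=
      hΨ.cont.comp (continuous_const.mul continuous_fst)
    exact h3.mul ((hΦc.comp h1).mul h2)
  rw [swap2_sa698 μc 0 (2 * Real.pi) 0 Real.pi
    (F := fun h α b => Ψ (g * h) * (Φ (h * y α b) * ((Real.sin b : ℝ) : ℂ))) hF1 hK
    (by
      intro h α hα b hb hh
      by_contra hne
      apply hh
      have hne' : Φ (h * y α b) ≠ 0 := fun h0 => hne (by rw [h0, zero_mul, mul_zero])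
      refine ⟨h * y α b, subset_tsupport _ hne', (y α b)⁻¹, ⟨(α, b), ⟨hα, hb⟩, rfl⟩, ?_⟩
      show h * y α b * (y α b)⁻¹ = h
      rw [mul_inv_cancel_right])]
  -- the key identity
  simp only [acts_key_sa698 μc hy hΦr hΨ.unitary g]
  -- second swap
  have hF2 : Continuous fun p : GL (Fin 2) ℂ × ℝ × ℝ =>
      Ψ (g * p.1 * y p.2.1 p.2.2) * Φ p.1 * ((Real.sin p.2.2 : ℝ) : ℂ) := by
    have h1 : Continuous fun p : GL (Fin 2) ℂ × ℝ × ℝ => g * p.1 * y p.2.1 p.2.2 :=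
      (continuous_const.mul continuous_fst).mul (hycont.comp continuous_snd)
    have h2 : Continuous fun p : GL (Fin 2) ℂ × ℝ × ℝ => ((Real.sin p.2.2 : ℝ) : ℂ) := by
      fun_prop
    exact ((hΨ.cont.comp h1).mul (hΦc.comp continuous_fst)).mul h2
  rw [← swap2_sa698 μc 0 (2 * Real.pi) 0 Real.pi
    (F := fun h α b => Ψ (g * h * y α b) * Φ h * ((Real.sin b : ℝ) : ℂ)) hF2 hΦs.isCompact
    (by
      intro h α _ b _ hh
      have h0 : Φ h = 0 := by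
        by_contra hne
        exact hh (subset_tsupport _ hne)
      rw [h0, mul_zero, zero_mul])]
  -- the mean value property
  have e2 : ∀ h : GL (Fin 2) ℂ, (∫ α in (0 : ℝ)..(2 * Real.pi), ∫ b in (0 : ℝ)..Real.pi,
      Ψ (g * h * y α b) * Φ h * ((Real.sin b : ℝ) : ℂ))
      = ((4 * Real.pi * (d / Real.sinh d) : ℝ) : ℂ) * (Ψ (g * h) * Φ h) := by
    intro h
    have hm := hΨ.mean d hd y hy (g * h)
    have e3 : ∀ α b : ℝ, Ψ (g * h * y α b) * Φ h * ((Real.sin b : ℝ) : ℂ)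
        = Φ h * (Ψ (g * h * y α b) * ((Real.sin b : ℝ) : ℂ)) := by
      intro α b
      ring
    simp only [e3]
    have e4 : (∫ α in (0 : ℝ)..(2 * Real.pi), ∫ b in (0 : ℝ)..Real.pi,
        Φ h * (Ψ (g * h * y α b) * ((Real.sin b : ℝ) : ℂ)))
        = Φ h * ∫ α in (0 : ℝ)..(2 * Real.pi), ∫ b in (0 : ℝ)..Real.pi,
          Ψ (g * h * y α b) * ((Real.sin b : ℝ) : ℂ) := by
      rw [← intervalIntegral.integral_const_mul]
      congr 1
      funext α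
      rw [← intervalIntegral.integral_const_mul]
    rw [e4, hm]
    ring
  simp only [e2]
  rw [integral_const_mul, hA Ψ hΨ g]
  ring

end Acts

/-! ## 3. Smoothness -/

theorem sph_entries_sa698 (α b d : ℝ) :
    (rotZ α * rotY b * torus d : Matrix (Fin 2) (Fin 2) ℂ)
      = !![Complex.exp (Complex.I * ((α / 2 : ℝ) : ℂ)) *
            ((Real.cos (b / 2) * Real.exp (d / 2) : ℝ) : ℂ),
          -(Complex.exp (Complex.I * ((α / 2 : ℝ) : ℂ)) *
            ((Real.sin (b / 2) * Real.exp (-(d / 2)) : ℝ) : ℂ));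
          Complex.exp (-(Complex.I * ((α / 2 : ℝ) : ℂ))) *
            ((Real.sin (b / 2) * Real.exp (d / 2) : ℝ) : ℂ),
          Complex.exp (-(Complex.I * ((α / 2 : ℝ) : ℂ))) *
            ((Real.cos (b / 2) * Real.exp (-(d / 2)) : ℝ) : ℂ)] := by
  show (!![Complex.exp (Complex.I * ((α / 2 : ℝ) : ℂ)), 0;
          0, Complex.exp (-(Complex.I * ((α / 2 : ℝ) : ℂ)))] : Matrix (Fin 2) (Fin 2) ℂ) *
        !![((Real.cos (b / 2) : ℝ) : ℂ), -((Real.sin (b / 2) : ℝ) : ℂ);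
          ((Real.sin (b / 2) : ℝ) : ℂ), ((Real.cos (b / 2) : ℝ) : ℂ)] *
        !![((Real.exp (d / 2) : ℝ) : ℂ), 0; 0, ((Real.exp (-(d / 2)) : ℝ) : ℂ)] = _
  ext i j
  fin_cases i <;> fin_cases j <;> simp [Matrix.mul_apply, Fin.sum_univ_two] <;> ring

theorem contDiff_sph_entry_sa698 {E : Type*} [NormedAddCommGroup E] [NormedSpace ℝ E]
    {fα fb : E → ℝ} (hα : ContDiff ℝ ∞ fα) (hb : ContDiff ℝ ∞ fb) (d : ℝ) (i j : Fin 2) :
    ContDiff ℝ ∞ (fun s : E => (rotZ (fα s) * rotY (fb s) * torus d) i j) := by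
  simp only [sph_entries_sa698]
  have h1 : ContDiff ℝ ∞ (fun s : E => Complex.exp (Complex.I * ((fα s / 2 : ℝ) : ℂ))) :=
    (contDiff_const.mul (Complex.ofRealCLM.contDiff.comp (hα.div_const 2))).cexp
  have h2 : ContDiff ℝ ∞ (fun s : E => Complex.exp (-(Complex.I * ((fα s / 2 : ℝ) : ℂ)))) :=
    (contDiff_const.mul (Complex.ofRealCLM.contDiff.comp (hα.div_const 2))).neg.cexp
  have hc : ∀ c : ℝ, ContDiff ℝ ∞ (fun s : E => ((Real.cos (fb s / 2) * c : ℝ) : ℂ)) :=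
    fun c => Complex.ofRealCLM.contDiff.comp
      ((Real.contDiff_cos.comp (hb.div_const 2)).mul contDiff_const)
  have hs : ∀ c : ℝ, ContDiff ℝ ∞ (fun s : E => ((Real.sin (fb s / 2) * c : ℝ) : ℂ)) :=
    fun c => Complex.ofRealCLM.contDiff.comp
      ((Real.contDiff_sin.comp (hb.div_const 2)).mul contDiff_const)
  fin_cases i <;> fin_cases j
  · exact h1.mul (hc _)
  · exact (h1.mul (hs _)).neg
  · exact h2.mul (hs _)
  · exact h2.mul (hc _)

/-- **The sphere mean of a smooth function is smooth.** -/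
theorem isCplxSmooth_sphMean698 {d : ℝ} {y : ℝ → ℝ → GL (Fin 2) ℂ} (hy : IsSphC445 d y)
    {Φ : GL (Fin 2) ℂ → ℂ} (hsm : IsCplxSmooth Φ) : IsCplxSmooth (sphMeanC445 y Φ) := by
  intro n h hh
  -- the family with `n + 2` parameters
  let pr : (Fin (n + 2) → ℝ) → (Fin n → ℝ) := fun s i => s (Fin.castAdd 2 i)
  let H : (Fin (n + 2) → ℝ) → GL (Fin 2) ℂ :=
    fun s => h (pr s) * y (s (Fin.natAdd n 0)) (s (Fin.natAdd n 1))
  have hpr : ContDiff ℝ ∞ pr := contDiff_pi.2 fun i => contDiff_apply ℝ ℝ (Fin.castAdd 2 i)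
  have hH : ∀ i j : Fin 2, ContDiff ℝ ∞
      (fun s => ((H s : GL (Fin 2) ℂ) : Matrix (Fin 2) (Fin 2) ℂ) i j) := by
    intro i j
    have e : (fun s => ((H s : GL (Fin 2) ℂ) : Matrix (Fin 2) (Fin 2) ℂ) i j)
        = fun s => ((h (pr s) : GL (Fin 2) ℂ) : Matrix (Fin 2) (Fin 2) ℂ) i 0 *
              (rotZ (s (Fin.natAdd n 0)) * rotY (s (Fin.natAdd n 1)) * torus d) 0 j +
            ((h (pr s) : GL (Fin 2) ℂ) : Matrix (Fin 2) (Fin 2) ℂ) i 1 *
              (rotZ (s (Fin.natAdd n 0)) * rotY (s (Fin.natAdd n 1)) * torus d) 1 j := by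
      funext s
      show ((h (pr s) * y (s (Fin.natAdd n 0)) (s (Fin.natAdd n 1)) : GL (Fin 2) ℂ) :
        Matrix (Fin 2) (Fin 2) ℂ) i j = _
      rw [Units.val_mul, hy, Matrix.mul_apply, Fin.sum_univ_two]
    rw [e]
    have ha : ContDiff ℝ ∞ (fun s : Fin (n + 2) → ℝ => s (Fin.natAdd n 0)) :=
      contDiff_apply ℝ ℝ _
    have hb : ContDiff ℝ ∞ (fun s : Fin (n + 2) → ℝ => s (Fin.natAdd n 1)) :=
      contDiff_apply ℝ ℝ _
    exact (((hh i 0).comp hpr).mul (contDiff_sph_entry_sa698 ha hb d 0 j)).add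
      (((hh i 1).comp hpr).mul (contDiff_sph_entry_sa698 ha hb d 1 j))
  have key := hsm (n + 2) H hH
  -- the join
  let J : ℝ × ℝ × (Fin n → ℝ) → (Fin (n + 2) → ℝ) := fun q => Fin.append q.2.2 ![q.2.1, q.1]
  have hJ : ContDiff ℝ ∞ J := by
    refine contDiff_pi.2 fun j => ?_
    refine Fin.addCases (fun i => ?_) (fun i => ?_) j
    · have e : (fun q : ℝ × ℝ × (Fin n → ℝ) => J q (Fin.castAdd 2 i)) = fun q => q.2.2 i := by
        funext q
        exact Fin.append_left _ _ i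
      rw [e]
      exact (contDiff_apply ℝ ℝ i).comp (contDiff_snd.comp contDiff_snd)
    · have e : (fun q : ℝ × ℝ × (Fin n → ℝ) => J q (Fin.natAdd n i))
          = fun q => (![q.2.1, q.1] : Fin 2 → ℝ) i := by
        funext q
        exact Fin.append_right _ _ i
      rw [e]
      fin_cases i
      · exact contDiff_fst.comp contDiff_snd
      · exact contDiff_fst
  have hHJ : ∀ (t : Fin n → ℝ) (α b : ℝ), H (J (b, α, t)) = h t * y α b := by
    intro t α b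
    show h (pr (J (b, α, t))) * y (J (b, α, t) (Fin.natAdd n 0)) (J (b, α, t) (Fin.natAdd n 1))
      = _
    have e1 : pr (J (b, α, t)) = t := funext fun i => Fin.append_left _ _ i
    have e2 : J (b, α, t) (Fin.natAdd n 0) = α := by
      show Fin.append t ![α, b] (Fin.natAdd n 0) = α
      rw [Fin.append_right]
      rfl
    have e3 : J (b, α, t) (Fin.natAdd n 1) = b := by
      show Fin.append t ![α, b] (Fin.natAdd n 1) = b
      rw [Fin.append_right]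
      rfl
    rw [e1, e2, e3]
  -- the parametric integrals
  have hΦ1 : ContDiff ℝ ∞ (fun q : ℝ × ℝ × (Fin n → ℝ) =>
      Φ (H (J q)) * ((Real.sin q.1 : ℝ) : ℂ)) :=
    (key.comp hJ).mul (Complex.ofRealCLM.contDiff.comp (Real.contDiff_sin.comp contDiff_fst))
  have hI1 := contDiff_intervalParam_sa698 (P := ℝ × (Fin n → ℝ))
    (fun q : ℝ × ℝ × (Fin n → ℝ) => Φ (H (J q)) * ((Real.sin q.1 : ℝ) : ℂ)) hΦ1 0 Real.pi
  have hI2 := contDiff_intervalParam_sa698 (P := Fin n → ℝ)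
    (fun p : ℝ × (Fin n → ℝ) => ∫ b in (0 : ℝ)..Real.pi,
      Φ (H (J (b, p))) * ((Real.sin b : ℝ) : ℂ)) hI1 0 (2 * Real.pi)
  have e : (fun t => sphMeanC445 y Φ (h t))
      = fun t : Fin n → ℝ => ∫ α in (0 : ℝ)..(2 * Real.pi), ∫ b in (0 : ℝ)..Real.pi,
        Φ (H (J (b, α, t))) * ((Real.sin b : ℝ) : ℂ) := by
    funext t
    show (∫ α in (0 : ℝ)..(2 * Real.pi), ∫ b in (0 : ℝ)..Real.pi,
      Φ (h t * y α b) * ((Real.sin b : ℝ) : ℂ)) = _
    simp only [hHJ]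
  rw [e]
  exact hI2

/-! ## 4. The test function, the package -/

theorem isCplxTest_sphMean698 {d : ℝ} {y : ℝ → ℝ → GL (Fin 2) ℂ} (hy : IsSphC445 d y)
    {Φ : GL (Fin 2) ℂ → ℂ} (hΦ : IsCplxTest Φ) : IsCplxTest (sphMeanC445 y Φ) :=
  ⟨H922.continuous_sphMeanC922 hy hΦ.cont, H922.hasCompactSupport_sphMeanC922 hy hΦ.supp,
    fun k k' g hk hk' => H922.isBiU_sphMeanC922 hy hΦ.cont
      (fun k₁ k₂ g h1 h2 => hΦ.bi_inv k₁ k₂ g h1 h2) k k' g hk hk'⟩

theorem isCplxTest_right_sa698 {Φ : GL (Fin 2) ℂ → ℂ} (hΦ : IsCplxTest Φ)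
    (k g : GL (Fin 2) ℂ) (hk : IsUnitary2 k) : Φ (g * k) = Φ g := by
  have h1 : IsUnitary2 (1 : GL (Fin 2) ℂ) := by
    show ((1 : GL (Fin 2) ℂ) : Matrix (Fin 2) (Fin 2) ℂ) *
      ((1 : GL (Fin 2) ℂ) : Matrix (Fin 2) (Fin 2) ℂ).conjTranspose = 1
    simp
  have h := hΦ.bi_inv 1 k g h1 hk
  rwa [one_mul] at h

/-- **THE LOCAL FIELDS OF THE STEP `M_{w,d}` UPSTAIRS** (`test_up`, `smooth_up`, `symβ'`,
`abel_up`, `acts_up` of the data after the step, and the total mass). -/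
theorem sphDatUp698 [MeasurableSpace (GL (Fin 2) ℂ)] [BorelSpace (GL (Fin 2) ℂ)]
    (μc : Measure (GL (Fin 2) ℂ)) [μc.IsHaarMeasure] (κc : ℂ)
    {d : ℝ} (hd : 0 < d) {y : ℝ → ℝ → GL (Fin 2) ℂ} (hy : IsSphC445 d y)
    {Φ : GL (Fin 2) ℂ → ℂ} (hΦ : IsCplxTest Φ) (hsm : IsCplxSmooth Φ)
    {β : ℝ × ℝ → ℂ} (hβ : IsSymBump β) (hN : HasAbelN Φ β)
    (hA : ActsBy μc Φ (κc * ∫ x : ℝ × ℝ, β x)) :
    IsCplxTest (sphMeanC445 y Φ) ∧ IsCplxSmooth (sphMeanC445 y Φ) ∧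
      IsSymBump (abelMean698 d β) ∧ HasAbelN (sphMeanC445 y Φ) (abelMean698 d β) ∧
      ActsBy μc (sphMeanC445 y Φ) (κc * ∫ x : ℝ × ℝ, abelMean698 d β x) ∧
      ∫ x : ℝ × ℝ, abelMean698 d β x
        = ((4 * Real.pi * (d / Real.sinh d) : ℝ) : ℂ) * ∫ x : ℝ × ℝ, β x := by
  have hr := isCplxTest_right_sa698 hΦ
  have hm := integral_abelMean698 hd.ne' hβ.1.continuous hβ.2.1
  refine ⟨isCplxTest_sphMean698 hy hΦ, isCplxSmooth_sphMean698 hy hsm,
    isSymBump_abelMean698 d hβ, hasAbelN_sphMean698 hy hΦ.cont hΦ.supp hr hN, ?_, hm⟩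
  have h := actsBy_sphMean698 μc hd hy hΦ.cont hΦ.supp hr hA
  have e : κc * ∫ x : ℝ × ℝ, abelMean698 d β x
      = ((4 * Real.pi * (d / Real.sinh d) : ℝ) : ℂ) * (κc * ∫ x : ℝ × ℝ, β x) := by
    rw [hm]
    ring
  rw [e]
  exact h

end Fermat.Agent.LT.T7.H698

end
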